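import Mathlib
import Fermat.Agent.FF.Line
import Fermat.Agent.RR.Riemann
import Fermat.Prelude.Def_AlgebraicCurve_DivisorPushPull

/-!
# The places at infinity (poles of `x`) and the rational subfield `K(x)`
-/

set_option autoImplicit false

noncomputable section

open AlgebraicCurve IsDedekindDomain WithZero IsLocalRing Polynomial IntermediateField

namespace Fermat.Agent.RH

variable {K F : Type*} [Field K] [Field F] [Algebra K F]

/-- functions whose pole order at the poles `v` of `x` is at most `m` times that of `x`. -/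
def VInf (x : F) (m : ℤ) : Submodule K F where
  carrier := {f | ∀ v : Place K F, v.ord x < 0 → v.adicValuation f ≤ exp (-(m * v.ord x))}
  add_mem' hf hg v hv := (Valuation.map_add _ _ _).trans (max_le (hf v hv) (hg v hv))
  zero_mem' v _ := by simp
  smul_mem' c f hf v hv := by
    rw [Algebra.smul_def, map_mul]
    calc _ ≤ 1 * v.adicValuation f :=
          mul_le_mul_left (v.adicValuation_le_one_of_mem (v.algebraMap_mem' c)) _
      _ ≤ _ := by rw [one_mul]; exact hf v hv

variable {x : F} {m m' : ℤ}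

theorem mem_VInf {f : F} : f ∈ VInf (K := K) x m ↔
    ∀ v : Place K F, v.ord x < 0 → v.adicValuation f ≤ exp (-(m * v.ord x)) := Iff.rfl

theorem mem_VInf_iff_ord {f : F} : f ∈ VInf (K := K) x m ↔
    ∀ v : Place K F, v.ord x < 0 → f = 0 ∨ m * v.ord x ≤ v.ord f := by
  rw [mem_VInf]
  refine forall_congr' fun v => forall_congr' fun _ => ?_
  rcases eq_or_ne f 0 with rfl | hf
  · simp
  · rw [← Fermat.FF.le_ord_iff v hf, or_iff_right hf]

theorem VInf_mono (h : m ≤ m') : VInf (K := K) x m ≤ VInf x m' := by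
  intro f hf v hv
  refine (hf v hv).trans (exp_le_exp.mpr ?_)
  nlinarith

theorem mul_mem_VInf {f g : F} (hf : f ∈ VInf (K := K) x m) (hg : g ∈ VInf (K := K) x m') :
    f * g ∈ VInf (K := K) x (m + m') := by
  intro v hv
  rw [map_mul, show -((m + m') * v.ord x) = -(m * v.ord x) + -(m' * v.ord x) by ring, exp_add]
  exact mul_le_mul' (hf v hv) (hg v hv)

theorem zpow_mem_VInf (hx : x ≠ 0) (m : ℤ) : x ^ m ∈ VInf (K := K) x m := by
  intro v hv
  rw [← Fermat.FF.le_ord_iff v (zpow_ne_zero _ hx), v.ord_zpow]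

theorem self_mem_VInf (hx : x ≠ 0) : x ∈ VInf (K := K) x 1 := by
  simpa using zpow_mem_VInf (K := K) hx 1

theorem algebraMap_mem_VInf (c : K) : algebraMap K F c ∈ VInf (K := K) x 0 := by
  intro v hv
  simpa using v.adicValuation_le_one_of_mem (v.algebraMap_mem' c)

theorem zpow_mul_mem_VInf_iff (hx : x ≠ 0) {f : F} {a : ℤ} :
    x ^ a * f ∈ VInf (K := K) x m ↔ f ∈ VInf (K := K) x (m - a) := by
  constructor
  · intro h
    have h1 := mul_mem_VInf (zpow_mem_VInf (K := K) hx (-a)) h
    rw [← mul_assoc, ← zpow_add₀ hx, neg_add_cancel, zpow_zero, one_mul] at h1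
    convert h1 using 1
    ring_nf
  · intro h
    have h1 := mul_mem_VInf (zpow_mem_VInf (K := K) hx a) h
    convert h1 using 1
    ring_nf

/-- Order of a polynomial in `x` at a pole of `x`. -/
theorem ord_aeval {v : Place K F} (hv : v.ord x < 0) {P : K[X]} (hP : P ≠ 0) :
    v.ord (aeval x P) = P.natDegree * v.ord x := by
  induction' hn : P.natDegree using Nat.strong_induction_on with n ih generalizing P
  rcases Nat.eq_zero_or_pos n with rfl | hn0
  · rw [Polynomial.eq_C_of_natDegree_eq_zero hn]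
    simp [Fermat.FF.ord_algebraMap]
  · have h1 : P.divX * X + C (P.coeff 0) = P := P.divX_mul_X_add
    have hd : P.divX.natDegree = n - 1 := by rw [natDegree_divX_eq_natDegree_tsub_one, hn]
    have hd0 : P.divX ≠ 0 := by
      intro h0
      rw [h0, zero_mul, zero_add] at h1
      rw [← h1, natDegree_C] at hn
      omega
    have hx : x ≠ 0 := Fermat.FF.ne_zero_of_ord_ne_zero v hv.ne
    have h2 := ih (n - 1) (by omega) hd0 hd
    have h2' : v.ord (aeval x P.divX) ≤ 0 := by
      rw [h2]
      exact mul_nonpos_of_nonneg_of_nonpos (Int.natCast_nonneg _) hv.le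
    have h3 : aeval x P.divX ≠ 0 := by
      rcases eq_or_ne n 1 with rfl | hn1
      · rw [Polynomial.eq_C_of_natDegree_eq_zero hd]
        rw [Polynomial.eq_C_of_natDegree_eq_zero hd] at hd0
        simpa using hd0
      · apply Fermat.FF.ne_zero_of_ord_ne_zero v
        rw [h2]
        have : ((n - 1 : ℕ) : ℤ) ≠ 0 := by
          have : n - 1 ≠ 0 := by omega
          exact_mod_cast this
        exact mul_ne_zero this hv.ne
    have h4 : v.ord (aeval x P.divX * x) = n * v.ord x := by
      rw [v.ord_mul h3 hx, h2]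
      have : ((n - 1 : ℕ) : ℤ) = n - 1 := by omega
      rw [this]
      ring
    have h5 : v.ord (aeval x P.divX * x) < 0 := by
      rw [h4]
      exact mul_neg_of_pos_of_neg (by exact_mod_cast hn0) hv
    conv_lhs => rw [← h1]
    rw [map_add, map_mul, aeval_X, aeval_C]
    rcases eq_or_ne (P.coeff 0) 0 with h0 | h0
    · rw [h0, map_zero, add_zero, h4]
    · rw [Fermat.FF.ord_add_of_lt v (mul_ne_zero h3 hx) (by simpa using h0)
        (by rw [Fermat.FF.ord_algebraMap]; exact h5), h4]

section Transcendental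

variable (hx : Transcendental K x)

include hx in
theorem aeval_ne_zero {P : K[X]} (hP : P ≠ 0) : aeval x P ≠ 0 := by
  intro h
  exact hx ⟨P, hP, h⟩

/-- Every element of `K(x)` is a quotient of polynomials in `x`. -/
theorem exists_eq_aeval_div (q : K⟮x⟯) : ∃ P Q : K[X], (q : F) = aeval x P / aeval x Q :=
  (mem_adjoin_simple_iff K (q : F)).mp q.2

variable {v w : Place K F}

include hx in
/-- the degree of a rational function is seen by every place at infinity. -/
theorem exists_ord_eq_mul {q : K⟮x⟯} (hq : q ≠ 0) : ∃ d : ℤ, ∀ v : Place K F, v.ord x < 0 →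
    v.ord (q : F) = d * v.ord x := by
  obtain ⟨P, Q, h⟩ := exists_eq_aeval_div q
  have hq' : (q : F) ≠ 0 := by simpa using hq
  have hP : P ≠ 0 := by
    rintro rfl
    rw [map_zero, zero_div] at h
    exact hq' h
  have hQ : Q ≠ 0 := by
    rintro rfl
    rw [map_zero, div_zero] at h
    exact hq' h
  refine ⟨P.natDegree - Q.natDegree, fun v hv => ?_⟩
  rw [h, div_eq_mul_inv, v.ord_mul (aeval_ne_zero hx hP) (inv_ne_zero (aeval_ne_zero hx hQ)),
    v.ord_inv, ord_aeval hv hP, ord_aeval hv hQ]
  ring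

end Transcendental

section FunctionField

open Fermat.Agent.RR

variable [IsAlgClosed K] [FunctionField K F] (hx : Transcendental K x) [FiniteDimensional K⟮x⟯ F]

include hx in
theorem exists_pole : ∃ v : Place K F, v.ord x < 0 := by
  by_contra h
  push Not at h
  have h1 : polesOf (K := K) x = 0 := by
    ext v
    simp [h v]
  have h2 := degree_polesOf (K := K) hx
  rw [h1, map_zero] at h2
  have := Module.finrank_pos (R := K⟮x⟯) (M := F)
  omega

/-- the place at infinity of `K(x)` -/
def wInf : Place K K⟮x⟯ := (exists_pole hx).choose.restrict K⟮x⟯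

omit [IsAlgClosed K] [FunctionField K F] in
include hx in
theorem restrict_eq_restrict {v v' : Place K F} (hv : v.ord x < 0) (hv' : v'.ord x < 0) :
    v.restrict K⟮x⟯ = v'.restrict K⟮x⟯ := by
  apply Place.ext
  ext q
  rw [Place.mem_restrict_iff, Place.mem_restrict_iff]
  rcases eq_or_ne q 0 with rfl | hq
  · simp
  · have hq' : algebraMap K⟮x⟯ F q ≠ 0 := by simpa using hq
    rw [Fermat.FF.mem_iff_ord v hq', Fermat.FF.mem_iff_ord v' hq']
    obtain ⟨d, hd⟩ := exists_ord_eq_mul hx hq
    have h1 := hd v hv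
    have h2 := hd v' hv'
    rw [show algebraMap K⟮x⟯ F q = (q : F) from rfl, h1, h2]
    constructor <;> intro h <;> nlinarith

theorem restrict_eq_wInf {v : Place K F} (hv : v.ord x < 0) : v.restrict K⟮x⟯ = wInf hx :=
  restrict_eq_restrict hx hv (exists_pole hx).choose_spec

omit [IsAlgClosed K] [FunctionField K F] in
include hx in
theorem ord_gen_restrict {v : Place K F} (hv : v.ord x < 0) :
    (v.restrict K⟮x⟯).ord (AdjoinSimple.gen K x) = -1 := by
  obtain ⟨q, hq⟩ := Fermat.FF.exists_ord_eq_one (v.restrict K⟮x⟯)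
  have hq0 : q ≠ 0 := Fermat.FF.ne_zero_of_ord_ne_zero _ (by rw [hq]; exact one_ne_zero)
  obtain ⟨d, hd⟩ := exists_ord_eq_mul hx hq0
  have h1 := hd v hv
  have h2 := v.ord_restrict (F := K⟮x⟯) q
  have h3 := v.ord_restrict (F := K⟮x⟯) (AdjoinSimple.gen K x)
  have h4 := v.ramificationIndex_pos (F := K⟮x⟯)
  rw [show algebraMap K⟮x⟯ F (AdjoinSimple.gen K x) = x from rfl] at h3
  rw [show algebraMap K⟮x⟯ F q = (q : F) from rfl, h1, hq, h3] at h2
  set e : ℤ := (v.ramificationIndex K⟮x⟯ : ℤ)
  have he : (0 : ℤ) < e := Int.natCast_pos.mpr h4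
  set g := (v.restrict K⟮x⟯).ord (AdjoinSimple.gen K x)
  have h5 : d * g = 1 := by
    have : e * (d * g - 1) = 0 := by linear_combination h2
    rcases mul_eq_zero.mp this with h | h
    · omega
    · omega
  have h6 : g < 0 := by
    rw [h3] at hv
    by_contra h
    push Not at h
    have := mul_nonneg he.le h
    omega
  rcases Int.eq_one_or_neg_one_of_mul_eq_one' h5 with ⟨_, h⟩ | ⟨_, h⟩
  · omega
  · exact h

theorem ord_gen_wInf : (wInf hx).ord (AdjoinSimple.gen K x) = -1 :=
  ord_gen_restrict hx (exists_pole hx).choose_spec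

theorem restrict_eq_wInf_iff {v : Place K F} : v.restrict K⟮x⟯ = wInf hx ↔ v.ord x < 0 := by
  refine ⟨fun h => ?_, restrict_eq_wInf hx⟩
  have h3 := v.ord_restrict (F := K⟮x⟯) (AdjoinSimple.gen K x)
  rw [show algebraMap K⟮x⟯ F (AdjoinSimple.gen K x) = x from rfl, h, ord_gen_wInf] at h3
  have h4 := v.ramificationIndex_pos (F := K⟮x⟯)
  rw [h3]
  omega

/-- order of a rational function at a place above infinity -/
theorem ord_coe_eq {v : Place K F} (hv : v.ord x < 0) (q : K⟮x⟯) :
    v.ord (q : F) = -v.ord x * (wInf hx).ord q := by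
  have h2 := v.ord_restrict (F := K⟮x⟯) q
  have h3 := v.ord_restrict (F := K⟮x⟯) (AdjoinSimple.gen K x)
  rw [restrict_eq_wInf hx hv] at h2 h3
  rw [show algebraMap K⟮x⟯ F (AdjoinSimple.gen K x) = x from rfl, ord_gen_wInf] at h3
  rw [show algebraMap K⟮x⟯ F q = (q : F) from rfl] at h2
  rw [h2, h3]
  ring

theorem coe_mem_VInf_iff {q : K⟮x⟯} {m : ℤ} :
    (q : F) ∈ VInf (K := K) x m ↔ (wInf hx).adicValuation q ≤ exp m := by
  rcases eq_or_ne q 0 with rfl | hq
  · simp
  have hq' : (q : F) ≠ 0 := by simpa using hq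
  rw [mem_VInf_iff_ord]
  have h1 : (wInf hx).adicValuation q ≤ exp m ↔ -m ≤ (wInf hx).ord q := by
    rw [Fermat.FF.le_ord_iff _ hq, neg_neg]
  rw [h1]
  constructor
  · intro h
    obtain ⟨v, hv⟩ := exists_pole hx
    have h2 := (h v hv).resolve_left hq'
    rw [ord_coe_eq hx hv] at h2
    nlinarith
  · intro h v hv
    right
    rw [ord_coe_eq hx hv]
    nlinarith

include hx in
/-- leading coefficients -/
theorem exists_leading {q : K⟮x⟯} (hq : (q : F) ∈ VInf (K := K) x 0) :
    ∃ c : K, (q : F) - algebraMap K F c ∈ VInf (K := K) x (-1) := by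
  obtain ⟨v, hv⟩ := exists_pole hx
  have h1 : (q : F) ∈ v.toValuationSubring := by
    rw [Fermat.FF.mem_iff_val_le_one]
    simpa using hq v hv
  obtain ⟨c, hc⟩ := RR.exists_const_of_mem v h1
  refine ⟨c, ?_⟩
  have h2 : (q : F) - algebraMap K F c = ((q - algebraMap K K⟮x⟯ c : K⟮x⟯) : F) := rfl
  rw [h2] at hc ⊢
  rw [coe_mem_VInf_iff hx]
  rcases hc with hc | hc
  · have : q - algebraMap K K⟮x⟯ c = 0 := ZeroMemClass.coe_eq_zero.mp hc
    rw [this]
    simp
  · have h3 : q - algebraMap K K⟮x⟯ c ≠ 0 := by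
      rintro h0
      rw [h0] at hc
      simp at hc
    rw [ord_coe_eq hx hv] at hc
    rw [show (-1 : ℤ) = -(1 : ℤ) from rfl, ← Fermat.FF.le_ord_iff _ h3]
    nlinarith

omit [IsAlgClosed K] [FiniteDimensional K⟮x⟯ F] in
/-- every function lies in some `V m` -/
theorem exists_mem_VInf (f : F) : ∃ m : ℕ, f ∈ VInf (K := K) x m := by
  classical
  refine ⟨(∑ v ∈ (divOf (K := K) f).support, |divOf f v|).toNat, ?_⟩
  rw [mem_VInf_iff_ord]
  intro v hv
  right
  have h0 : (0 : ℤ) ≤ ∑ v ∈ (divOf (K := K) f).support, |divOf f v| :=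
    Finset.sum_nonneg fun _ _ => abs_nonneg _
  rw [Int.toNat_of_nonneg h0]
  have h1 : |divOf f v| ≤ ∑ v ∈ (divOf (K := K) f).support, |divOf f v| := by
    by_cases hvs : v ∈ (divOf (K := K) f).support
    · exact Finset.single_le_sum (f := fun v => |divOf (K := K) f v|)
        (fun _ _ => abs_nonneg _) hvs
    · rw [Finsupp.notMem_support_iff] at hvs
      rw [hvs, abs_zero]
      exact h0
  rw [divOf_apply] at h1
  have h2 := neg_abs_le (v.ord f)
  nlinarith

omit [IsAlgClosed K] in
include hx in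
theorem eq_zero_of_mem_VInf {f : F} (hf : ∀ v : Place K F, 0 ≤ v.ord x → 0 ≤ v.ord f)
    (hf' : f ∈ VInf (K := K) x (-1)) [IsAlgClosed K] : f = 0 := by
  have h1 : f ∈ riemannRochSpace (-polesOf (K := K) x) := by
    rw [mem_riemannRochSpace_iff]
    intro v
    rw [Finsupp.neg_apply, neg_neg, polesOf_apply]
    rcases le_or_gt 0 (v.ord x) with h | h
    · right
      rw [max_eq_right (by omega)]
      exact hf v h
    · rcases (mem_VInf_iff_ord.mp hf') v h with h2 | h2
      · left; exact h2
      · right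
        rw [max_eq_left (by omega)]
        omega
  have h2 : Divisor.degree (-polesOf (K := K) x) < 0 := by
    rw [map_neg, degree_polesOf hx]
    have := Module.finrank_pos (R := K⟮x⟯) (M := F)
    omega
  rw [riemannRochSpace_eq_bot h2] at h1
  simpa using h1

end FunctionField

end Fermat.Agent.RH
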