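import Fermat.Agent.RH.Genus
import Fermat.Agent.Jan.DegreeWiring
import Fermat.Agent.S24
import Fermat.Agent.S20

/-!
# The genus `genusFF` of the modular function field
-/

set_option autoImplicit false

open AlgebraicCurve ModularCurve

namespace Fermat.Agent.RH

variable (N : ℕ) [NeZero N]

theorem isFF1_bar : Fermat.FF.IsFF1 (AlgebraicClosure ℚ) (modularFunctionFieldBar N) :=
  Fermat.Agent.Jan.DegreeWiring.isFF1_modular' (L := AlgebraicClosure ℚ) (N := N)

theorem functionField_bar :
    Fermat.Agent.RR.FunctionField (AlgebraicClosure ℚ) (modularFunctionFieldBar N) := by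
  have := isFF1_bar N
  exact functionField_of_isFF1 _ _

theorem hasCanonicalDivisor_bar :
    HasCanonicalDivisor (K := AlgebraicClosure ℚ) (F := modularFunctionFieldBar N) := by
  have := isFF1_bar N
  exact hasCanonicalDivisor

theorem genusFF_bar :
    (genusFF (AlgebraicClosure ℚ) (modularFunctionFieldBar N) : ℚ) = genusFormula N := by
  have := isFF1_bar N
  have := hasCanonicalDivisor_bar N
  rw [genusFF_eq_genus]
  exact Fermat.Agent.S24.result N

theorem genusFF_bar_eq_finrank :
    genusFF (AlgebraicClosure ℚ) (modularFunctionFieldBar N) =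
      Module.finrank ℂ (CuspForm (CongruenceSubgroup.Gamma0 N) 2) := by
  have h1 := genusFF_bar N
  rw [← Fermat.Agent.S20.result N] at h1
  exact_mod_cast h1

end Fermat.Agent.RH
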