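import Mathlib
import Fermat.Agent.FF.Fiber

/-!
# The trace dual of an integral closure, tame case

`R` a principal ideal domain with residue fields `K`, `F` a finite separable extension of its
fraction field `k`, `B` the integral closure of `R` in `F`. If all the ramification indices are
nonzero in `K`, then `Tr (f B) ⊆ R` iff `ord_v f ≥ -(e_v - 1)` for all `v`.
-/

set_option autoImplicit false
set_option linter.deprecated false

noncomputable section

open AlgebraicCurve IsDedekindDomain WithZero IsLocalRing
open scoped nonZeroDivisors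

namespace Fermat.Agent.RH

section Ideal

attribute [local instance] FractionRing.liftAlgebra FractionRing.isScalarTower_liftAlgebra
  Ideal.Quotient.field

variable (A : Type*) {B : Type*} [CommRing A] [CommRing B] [Algebra A B]
  [IsDedekindDomain A] [IsDedekindDomain B] [Module.IsTorsionFree A B] [Module.Finite A B]
  [Algebra.IsSeparable (FractionRing A) (FractionRing B)]

/-- Tame ramification: the different is not divisible by `P ^ e`. -/
theorem not_pow_dvd_differentIdeal {p : Ideal A} [p.IsMaximal] (P : Ideal B) [P.IsMaximal]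
    [P.LiesOver p] (hp : p ≠ ⊥) (e : ℕ) (Q : Ideal B) (hPQ : P ^ e * Q = p.map (algebraMap A B))
    (hQ : ¬ P ∣ Q)
    (htame : ((e * P.inertiaDeg A : ℕ) : A ⧸ p) ≠ 0) :
    ¬ P ^ e ∣ differentIdeal A B := by
  classical
  have hpB : p.map (algebraMap A B) ≠ ⊥ :=
    (Ideal.map_eq_bot_iff_of_injective (FaithfulSMul.algebraMap_injective A B)).not.mpr hp
  have hP0 : P ≠ ⊥ := by
    rintro rfl
    have h := Ideal.LiesOver.over (P := (⊥ : Ideal B)) (p := p)
    apply hp
    rw [h, Ideal.under_def, Ideal.comap_bot_of_injective _ (FaithfulSMul.algebraMap_injective A B)]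
  have hPprime : Prime P := Ideal.prime_of_isPrime hP0 inferInstance
  have hQ0 : Q ≠ 0 := by
    rintro rfl
    exact hQ (dvd_zero _)
  -- `e` is the ramification index
  have hram : p.ramificationIdx' P = e := by
    rw [Ideal.IsDedekindDomain.ramificationIdx'_eq_normalizedFactors_count hpB inferInstance hP0, ← hPQ,
      UniqueFactorizationMonoid.normalizedFactors_mul (pow_ne_zero _ hP0) hQ0,
      Multiset.count_add, UniqueFactorizationMonoid.normalizedFactors_pow, Multiset.count_nsmul,
      UniqueFactorizationMonoid.normalizedFactors_irreducible hPprime.irreducible]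
    simp only [normalize_eq, Multiset.count_singleton_self, mul_one, Nat.add_eq_left]
    rw [Multiset.count_eq_zero]
    intro h
    exact hQ (UniqueFactorizationMonoid.dvd_of_mem_normalizedFactors h)
  have he0 : e ≠ 0 := by
    rintro rfl
    simp at htame
  subst hram
  have hcop : IsCoprime (P ^ (p.ramificationIdx' P)) Q := by
    rw [Ideal.isCoprime_iff_sup_eq]
    by_contra hne
    obtain ⟨M, hM, hle⟩ := Ideal.exists_le_maximal _ hne
    have h1 : P ≤ M := hM.isPrime.le_of_pow_le (le_sup_left.trans hle)
    have h2 : P = M := Ideal.IsMaximal.eq_of_le inferInstance hM.ne_top h1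
    exact hQ (Ideal.dvd_iff_le.mpr (h2 ▸ le_sup_right.trans hle))
  have hle1 : p ≤ Ideal.comap (algebraMap A B) Q := by
    rw [← Ideal.map_le_iff_le_comap, ← hPQ]
    exact Ideal.mul_le_right
  let : Algebra (A ⧸ p) (B ⧸ Q) := Ideal.Quotient.algebraQuotientOfLEComap hle1
  have : IsScalarTower A (A ⧸ p) (B ⧸ Q) := .of_algebraMap_eq' rfl
  have : Module.Finite (A ⧸ p) (B ⧸ Q) :=
    Module.Finite.of_restrictScalars_finite A (A ⧸ p) (B ⧸ Q)
  let : Algebra (A ⧸ p) (B ⧸ P ^ (p.ramificationIdx' P)) :=
    Ideal.Quotient.algebraQuotientPowRamificationIdx p P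
  have : IsScalarTower A (A ⧸ p) (B ⧸ P ^ (p.ramificationIdx' P)) := .of_algebraMap_eq' rfl
  have : Module.Finite (A ⧸ p) (B ⧸ P ^ (p.ramificationIdx' P)) :=
    Module.Finite.of_restrictScalars_finite A (A ⧸ p) (B ⧸ P ^ (p.ramificationIdx' P))
  have : NeZero (p.ramificationIdx' P) := ⟨he0⟩
  have hfin : Module.finrank (A ⧸ p) (B ⧸ P ^ (p.ramificationIdx' P)) =
      p.ramificationIdx' P * P.inertiaDeg A := by
    rw [Ideal.finrank_prime_pow_ramificationIdx p P hP0 he0, Ideal.inertiaDeg_eq_of_isMaximal p P]
  let e : (B ⧸ p.map (algebraMap A B)) ≃ₐ[A ⧸ p]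
      ((B ⧸ P ^ (p.ramificationIdx' P)) × B ⧸ Q) :=
    { __ := (Ideal.quotEquivOfEq hPQ.symm).trans
        (Ideal.quotientMulEquivQuotientProd (P ^ (p.ramificationIdx' P)) Q hcop),
      commutes' := Quotient.ind fun _ ↦ rfl }
  obtain ⟨y, hy⟩ := Ideal.Quotient.mk_surjective (e.symm (1, 0))
  refine not_dvd_differentIdeal_of_intTrace_not_mem A (P ^ (p.ramificationIdx' P)) Q hPQ y ?_ ?_
  · have := congr((e $hy).2)
    simp at this
    simpa [e, Ideal.Quotient.eq_zero_iff_mem] using this
  · rw [← Ideal.Quotient.eq_zero_iff_mem, ← Algebra.trace_quotient_eq_of_isDedekindDomain,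
      hy, Algebra.trace_eq_of_algEquiv, Algebra.trace_prod_apply]
    have h1 : Algebra.trace (A ⧸ p) (B ⧸ P ^ (p.ramificationIdx' P)) 1 =
        ((p.ramificationIdx' P * P.inertiaDeg A : ℕ) : A ⧸ p) := by
      have := Algebra.trace_algebraMap (R := A ⧸ p) (S := B ⧸ P ^ (p.ramificationIdx' P)) 1
      rw [map_one, hfin] at this
      rw [this, nsmul_eq_mul, mul_one]
    rw [h1]
    simpa using htame

end Ideal

section Elem

variable {K F : Type*} [Field K] [Field F] [Algebra K F]
variable {R : Type*} [CommRing R] [IsDomain R] [IsPrincipalIdealRing R] [Algebra K R]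
  [Algebra R F] [IsScalarTower K R F]
variable (k : Type*) [Field k] [Algebra R k] [IsFractionRing R k] [Algebra k F]
  [IsScalarTower R k F] [FiniteDimensional k F] [Algebra.IsSeparable k F]

attribute [local instance] FractionRing.liftAlgebra FractionRing.isScalarTower_liftAlgebra

include k in
omit [IsPrincipalIdealRing R] [FiniteDimensional k F] in
theorem isSeparable_fractionRing [IsDomain (integralClosure R F)]
    [IsFractionRing (integralClosure R F) F] [FaithfulSMul R (integralClosure R F)] :
    Algebra.IsSeparable (FractionRing R) (FractionRing (integralClosure R F)) := by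
  have H : RingHom.comp (algebraMap (FractionRing R) (FractionRing (integralClosure R F)))
      ↑(FractionRing.algEquiv R k).symm.toRingEquiv =
        RingHom.comp ↑(FractionRing.algEquiv (integralClosure R F) F).symm.toRingEquiv
          (algebraMap k F) := by
    apply IsLocalization.ringHom_ext R⁰
    ext
    simp only [RingHom.coe_comp, RingHom.coe_coe,
      AlgEquiv.coe_ringEquiv, Function.comp_apply, AlgEquiv.commutes,
      ← IsScalarTower.algebraMap_apply]
    rw [IsScalarTower.algebraMap_apply R (integralClosure R F) F, AlgEquiv.commutes,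
      ← IsScalarTower.algebraMap_apply]
  exact Algebra.IsSeparable.of_equiv_equiv _ _ H

/-- The ramification index of `P` over the prime element `ϖ`. -/
def eIdx (P : HeightOneSpectrum (integralClosure R F)) (ϖ : R) : ℕ :=
  multiplicity P.asIdeal (Ideal.span {algebraMap R (integralClosure R F) ϖ})

theorem mem_dual_iff [hded : IsDedekindDomain (integralClosure R F)]
    [hfrac : IsFractionRing (integralClosure R F) F]
    (htame : ∀ (P : HeightOneSpectrum (integralClosure R F)) (ϖ : R), Irreducible ϖ →
      algebraMap R (integralClosure R F) ϖ ∈ P.asIdeal →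
      ((eIdx P ϖ * P.asIdeal.inertiaDeg R : ℕ) : R ⧸ Ideal.span {ϖ}) ≠ 0) (f : F) :
    (∀ b : integralClosure R F, Algebra.trace k F (f * b) ∈ (algebraMap R k).range) ↔
      ∀ (P : HeightOneSpectrum (integralClosure R F)) (ϖ : R), Irreducible ϖ →
        algebraMap R (integralClosure R F) ϖ ∈ P.asIdeal →
        P.valuation F f ≤ exp ((eIdx P ϖ : ℤ) - 1) := by
  classical
  have hfaith : FaithfulSMul R F := Fermat.FF.faithful_of_tower k
  have hfin : Module.Finite R (integralClosure R F) := IsIntegralClosure.finite R k F _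
  have hinj : Function.Injective (algebraMap R (integralClosure R F)) :=
    FaithfulSMul.algebraMap_injective _ _
  have htf : Module.IsTorsionFree R (integralClosure R F) := inferInstance
  have hsep := isSeparable_fractionRing (R := R) (F := F) k
  have hD0 : differentIdeal R (integralClosure R F) ≠ ⊥ := differentIdeal_ne_bot
  have hmem : f ∈ FractionalIdeal.dual R k (1 : FractionalIdeal (integralClosure R F)⁰ F) ↔
      ∀ b : integralClosure R F, Algebra.trace k F (f * b) ∈ (algebraMap R k).range := by
    have h1 : (1 : FractionalIdeal (integralClosure R F)⁰ F) ≠ 0 := one_ne_zero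
    rw [FractionalIdeal.mem_dual h1]
    constructor
    · intro h b
      have := h b (FractionalIdeal.coe_mem_one _ b)
      rwa [Algebra.traceForm_apply] at this
    · rintro h a ha
      obtain ⟨b, rfl⟩ := (FractionalIdeal.mem_one_iff _).mp ha
      rw [Algebra.traceForm_apply]
      exact h b
  rw [← hmem]
  have hdual : FractionalIdeal.dual R k (1 : FractionalIdeal (integralClosure R F)⁰ F) =
      ((differentIdeal R (integralClosure R F) : Ideal (integralClosure R F)) :
        FractionalIdeal (integralClosure R F)⁰ F)⁻¹ := by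
    rw [coeIdeal_differentIdeal R k F, inv_inv]
  rw [hdual, FractionalIdeal.mem_inv_iff (by simpa using hD0)]
  have hDmem : (∀ y ∈ ((differentIdeal R (integralClosure R F) : Ideal (integralClosure R F)) :
        FractionalIdeal (integralClosure R F)⁰ F),
        f * y ∈ (1 : FractionalIdeal (integralClosure R F)⁰ F)) ↔
      ∀ y ∈ differentIdeal R (integralClosure R F), ∃ b : integralClosure R F,
        f * (y : F) = (b : F) := by
    constructor
    · intro h y hy
      obtain ⟨b, hb⟩ := (FractionalIdeal.mem_one_iff _).mp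
        (h y ((FractionalIdeal.mem_coeIdeal _).mpr ⟨y, hy, rfl⟩))
      exact ⟨b, hb.symm⟩
    · rintro h y hy
      obtain ⟨z, hz, rfl⟩ := (FractionalIdeal.mem_coeIdeal _).mp hy
      obtain ⟨b, hb⟩ := h z hz
      exact (FractionalIdeal.mem_one_iff _).mpr ⟨b, hb.symm⟩
  rw [hDmem]
  -- exponent facts
  have hmult : ∀ (P : HeightOneSpectrum (integralClosure R F)) (ϖ : R), Irreducible ϖ →
      algebraMap R (integralClosure R F) ϖ ∈ P.asIdeal →
      P.asIdeal ^ (eIdx P ϖ - 1) ∣ differentIdeal R (integralClosure R F) ∧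
      ¬ P.asIdeal ^ (eIdx P ϖ) ∣ differentIdeal R (integralClosure R F) ∧ 1 ≤ eIdx P ϖ := by
    intro P ϖ hϖ hP
    have hmax : (Ideal.span {ϖ}).IsMaximal := PrincipalIdealRing.isMaximal_of_irreducible hϖ
    have hPmax : P.asIdeal.IsMaximal := P.isMaximal
    have hover : P.asIdeal.LiesOver (Ideal.span {ϖ}) := by
      refine ⟨hmax.eq_of_le ?_ ?_⟩
      · rw [Ideal.under_def]
        exact Ideal.comap_ne_top _ hPmax.ne_top
      · rw [Ideal.span_singleton_le_iff_mem, Ideal.under_def, Ideal.mem_comap]
        exact hP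
    have hne : (Ideal.span {ϖ} : Ideal R) ≠ ⊥ := by
      rw [Ne, Ideal.span_singleton_eq_bot]
      exact hϖ.ne_zero
    have hmap : (Ideal.span {ϖ}).map (algebraMap R (integralClosure R F)) =
        Ideal.span {algebraMap R (integralClosure R F) ϖ} := by
      rw [Ideal.map_span, Set.image_singleton]
    have hne' : Ideal.span {algebraMap R (integralClosure R F) ϖ} ≠ 0 := by
      rw [Ideal.zero_eq_bot, Ne, Ideal.span_singleton_eq_bot]
      exact (map_ne_zero_iff _ hinj).mpr hϖ.ne_zero
    have hfm : FiniteMultiplicity P.asIdeal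
        (Ideal.span {algebraMap R (integralClosure R F) ϖ}) :=
      FiniteMultiplicity.of_prime_left (Ideal.prime_of_isPrime P.ne_bot P.isPrime) hne'
    obtain ⟨Q, hQ, hPQ⟩ := hfm.exists_eq_pow_mul_and_not_dvd
    have hQ' : P.asIdeal ^ (eIdx P ϖ) * Q =
        (Ideal.span {ϖ}).map (algebraMap R (integralClosure R F)) := by
      rw [hmap, hQ]; rfl
    refine ⟨?_, ?_, ?_⟩
    · exact pow_sub_one_dvd_differentIdeal R P.asIdeal (eIdx P ϖ) hne ⟨Q, hQ'.symm⟩
    · exact not_pow_dvd_differentIdeal R P.asIdeal hne (eIdx P ϖ) Q hQ' hPQ (htame P ϖ hϖ hP)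
    · by_contra h
      have h0 : eIdx P ϖ = 0 := by omega
      have := htame P ϖ hϖ hP
      rw [h0] at this
      simp at this
  constructor
  · intro h P ϖ hϖ hP
    obtain ⟨-, h2, h3⟩ := hmult P ϖ hϖ hP
    rw [Ideal.dvd_iff_le, SetLike.not_le_iff_exists] at h2
    obtain ⟨y, hy, hyP⟩ := h2
    obtain ⟨b, hb⟩ := h y hy
    have hvy : exp (-((eIdx P ϖ : ℕ) : ℤ)) < P.valuation F (y : F) := by
      rw [← HeightOneSpectrum.intValuation_le_pow_iff_mem, not_le] at hyP
      have := P.valuation_of_algebraMap (K := F) y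
      rw [← this] at hyP
      exact hyP
    have hvb : P.valuation F (b : F) ≤ 1 := P.valuation_le_one b
    rw [← hb, map_mul] at hvb
    have hvy0 : P.valuation F (y : F) ≠ 0 := by
      intro h0
      rw [h0] at hvy
      exact not_lt_zero' hvy
    rw [← WithZero.exp_log hvy0] at hvb hvy
    rw [exp_lt_exp] at hvy
    rcases eq_or_ne f 0 with rfl | hf
    · rw [map_zero]
      exact zero_le
    have hvf0 : P.valuation F f ≠ 0 := (Valuation.ne_zero_iff _).mpr hf
    rw [← WithZero.exp_log hvf0] at hvb ⊢
    rw [← exp_add, ← exp_zero, exp_le_exp] at hvb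
    rw [exp_le_exp]
    omega
  · intro h y hy
    rcases eq_or_ne f 0 with rfl | hf
    · exact ⟨0, by simp⟩
    rcases eq_or_ne y 0 with rfl | hy0
    · exact ⟨0, by simp⟩
    have hy0' : (y : F) ≠ 0 := fun h => hy0 (Subtype.ext h)
    have key : ∀ P : HeightOneSpectrum (integralClosure R F),
        P.valuation F (f * (y : F)) ≤ 1 := by
      intro P
      -- the prime of `R` below `P`
      obtain ⟨ϖ, hϖ, hϖP⟩ : ∃ ϖ : R, Irreducible ϖ ∧
          algebraMap R (integralClosure R F) ϖ ∈ P.asIdeal := by
        have hp : (P.asIdeal.under R).IsPrime := inferInstance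
        have hne : P.asIdeal.under R ≠ ⊥ := by
          have := P.ne_bot
          exact Ideal.under_ne_bot R this
        obtain ⟨ϖ, hϖ⟩ := (IsPrincipalIdealRing.principal (P.asIdeal.under R)).principal
        rw [Ideal.submodule_span_eq] at hϖ
        have hϖ0 : ϖ ≠ 0 := by
          rintro rfl
          apply hne
          rw [hϖ]; simp
        refine ⟨ϖ, ?_, ?_⟩
        · rw [hϖ, Ideal.span_singleton_prime hϖ0] at hp
          exact hp.irreducible
        · have : ϖ ∈ P.asIdeal.under R := hϖ ▸ Ideal.mem_span_singleton_self ϖ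
          exact this
      obtain ⟨h1, -, h3⟩ := hmult P ϖ hϖ hϖP
      have hfP := h P ϖ hϖ hϖP
      have hyP : P.valuation F (y : F) ≤ exp (-((eIdx P ϖ - 1 : ℕ) : ℤ)) := by
        have := P.valuation_of_algebraMap (K := F) y
        have h2 := (HeightOneSpectrum.intValuation_le_pow_iff_mem P y (eIdx P ϖ - 1)).mpr
          (Ideal.dvd_iff_le.mp h1 hy)
        rw [← this] at h2
        exact h2
      rw [map_mul]
      calc P.valuation F f * P.valuation F (y : F)
          ≤ exp ((eIdx P ϖ : ℤ) - 1) * exp (-((eIdx P ϖ - 1 : ℕ) : ℤ)) :=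
            mul_le_mul' hfP hyP
        _ = 1 := by
            rw [← exp_add, ← exp_zero]
            congr 1
            omega
    obtain ⟨b, hb⟩ := HeightOneSpectrum.mem_integers_of_valuation_le_one F _ key
    exact ⟨b, hb.symm⟩

/-- **Trace dual in the tame case**, in terms of places. -/
theorem trace_mem_iff_ord [IsAlgClosed K]
    (hres : ∀ ϖ : R, Irreducible ϖ → ∀ r : R, ∃ c : K, ϖ ∣ r - algebraMap K R c)
    (htame : ∀ (ϖ : R), Irreducible ϖ → ∀ v ∈ Fermat.FF.fiberSet K F ϖ,
      ((v.ord (algebraMap R F ϖ) : ℤ) : K) ≠ 0) {f : F} (hf : f ≠ 0) :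
    (∀ b : integralClosure R F, Algebra.trace k F (f * b) ∈ (algebraMap R k).range) ↔
      ∀ (ϖ : R), Irreducible ϖ → ∀ v ∈ Fermat.FF.fiberSet K F ϖ,
        -(v.ord (algebraMap R F ϖ) - 1) ≤ v.ord f := by
  classical
  have hfaith : FaithfulSMul R F := Fermat.FF.faithful_of_tower k
  have hded : IsDedekindDomain (integralClosure R F) := integralClosure.isDedekindDomain R k F
  have hfrac : IsFractionRing (integralClosure R F) F :=
    integralClosure.isFractionRing_of_finite_extension k F
  have hinj : Function.Injective (algebraMap R (integralClosure R F)) :=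
    FaithfulSMul.algebraMap_injective _ _
  -- translation between primes and places
  have htrans : ∀ (P : HeightOneSpectrum (integralClosure R F)) (ϖ : R), Irreducible ϖ →
      algebraMap R (integralClosure R F) ϖ ∈ P.asIdeal →
      Place.ofHeightOneSpectrum (K := K) (F := F) P ∈ Fermat.FF.fiberSet K F ϖ ∧
      (Place.ofHeightOneSpectrum (K := K) (F := F) P).ord (algebraMap R F ϖ) = eIdx P ϖ := by
    intro P ϖ hϖ hP
    have hne : algebraMap R (integralClosure R F) ϖ ≠ 0 :=
      (map_ne_zero_iff _ hinj).mpr hϖ.ne_zero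
    refine ⟨⟨fun r => ?_, ?_⟩, ?_⟩
    · rw [Place.ofHeightOneSpectrum_toValuationSubring, Valuation.mem_valuationSubring_iff,
        IsScalarTower.algebraMap_apply R (integralClosure R F) F]
      exact HeightOneSpectrum.valuation_le_one _ _
    · rw [IsScalarTower.algebraMap_apply R (integralClosure R F) F,
        Fermat.FF.val_ofHeightOneSpectrum_lt_one_iff]
      exact hP
    · rw [IsScalarTower.algebraMap_apply R (integralClosure R F) F,
        Fermat.FF.ord_ofHeightOneSpectrum_algebraMap P hne]
      rfl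
  have hK : ∀ ϖ : R, Irreducible ϖ → Function.Injective (algebraMap K (R ⧸ Ideal.span {ϖ})) := by
    intro ϖ hϖ
    have hmax : (Ideal.span {ϖ}).IsMaximal := PrincipalIdealRing.isMaximal_of_irreducible hϖ
    have : Nontrivial (R ⧸ Ideal.span {ϖ}) := Ideal.Quotient.nontrivial_iff.mpr hmax.ne_top
    exact (algebraMap K (R ⧸ Ideal.span {ϖ})).injective
  rw [mem_dual_iff k ?_ f]
  · constructor
    · intro h ϖ hϖ v hv
      have hv' := Fermat.FF.eq_ofHeightOneSpectrum v (Fermat.FF.integralClosure_le_of_le hv.1)
      set P : HeightOneSpectrum (integralClosure R F) :=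
        ⟨Fermat.FF.centre v (Fermat.FF.integralClosure_le_of_le hv.1),
          Fermat.FF.centre_isPrime _ _, Fermat.FF.centre_ne_bot _ _⟩ with hPdef
      have hP : algebraMap R (integralClosure R F) ϖ ∈ P.asIdeal := by
        show algebraMap R (integralClosure R F) ϖ ∈
          Fermat.FF.centre v (Fermat.FF.integralClosure_le_of_le hv.1)
        rw [Fermat.FF.mem_centre, ← IsScalarTower.algebraMap_apply R (integralClosure R F) F]
        exact hv.2
      have h1 := h P ϖ hϖ hP
      rw [hv', (htrans P ϖ hϖ hP).2, Fermat.FF.ord_ofHeightOneSpectrum P hf]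
      have h0 : P.valuation F f ≠ 0 := (Valuation.ne_zero_iff _).mpr hf
      rw [← WithZero.exp_log h0, exp_le_exp] at h1
      omega
    · intro h P ϖ hϖ hP
      obtain ⟨h1, h2⟩ := htrans P ϖ hϖ hP
      have h3 := h ϖ hϖ _ h1
      rw [h2, Fermat.FF.ord_ofHeightOneSpectrum P hf] at h3
      have h0 : P.valuation F f ≠ 0 := (Valuation.ne_zero_iff _).mpr hf
      rw [← WithZero.exp_log h0, exp_le_exp]
      omega
  · intro P ϖ hϖ hP
    obtain ⟨h1, h2⟩ := htrans P ϖ hϖ hP
    have hmax : (Ideal.span {ϖ}).IsMaximal := PrincipalIdealRing.isMaximal_of_irreducible hϖ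
    have hover : P.asIdeal.LiesOver (Ideal.span {ϖ}) := by
      refine ⟨hmax.eq_of_le ?_ ?_⟩
      · rw [Ideal.under_def]
        exact Ideal.comap_ne_top _ P.isPrime.ne_top
      · rw [Ideal.span_singleton_le_iff_mem, Ideal.under_def, Ideal.mem_comap]
        exact hP
    have h3 := Fermat.FF.inertiaDeg_eq_one (K := K) k ϖ hϖ (hres ϖ hϖ) ⟨P.asIdeal, P.isPrime, hover⟩
    simp only at h3
    rw [h3, mul_one]
    have h4 := htame ϖ hϖ _ h1
    rw [h2] at h4
    intro h5
    apply h4
    apply hK ϖ hϖ
    rw [map_zero, map_intCast, Int.cast_natCast]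
    exact h5

end Elem

end Fermat.Agent.RH
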