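import Mathlib
import Fermat.Agent.RH.Infinity
import Fermat.Agent.RH.Different

/-!
# Reduced bases of the integral closure of `K[x]`
-/

set_option autoImplicit false

noncomputable section

open AlgebraicCurve IsDedekindDomain WithZero IsLocalRing Polynomial IntermediateField
open IntermediateField.algebraAdjoinAdjoin Fermat.Agent.RR

namespace Fermat.Agent.RH

variable {K F : Type*} [Field K] [Field F] [Algebra K F] {x : F}

/-- polynomials in `x` are regular at the places where `x` is. -/
theorem adjoin_mem {v : Place K F} (hv : 0 ≤ v.ord x) (r : Algebra.adjoin K {x}) :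
    algebraMap (Algebra.adjoin K {x}) F r ∈ v.toValuationSubring := by
  have h1 : x ∈ v.toValuationSubring := by
    rcases eq_or_ne x 0 with rfl | hx
    · exact zero_mem _
    · exact (Fermat.FF.mem_iff_ord v hx).mpr hv
  have h2 : Algebra.adjoin K {x} ≤
      { v.toValuationSubring.toSubring.toSubsemiring with
        algebraMap_mem' := v.algebraMap_mem' } := by
    apply Algebra.adjoin_le
    rintro _ rfl
    exact h1
  exact h2 r.2

theorem integral_ord_nonneg {v : Place K F} (hv : 0 ≤ v.ord x) {f : F}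
    (hf : f ∈ integralClosure (Algebra.adjoin K {x}) F) : 0 ≤ v.ord f :=
  Fermat.FF.ord_nonneg_of_mem v (Fermat.FF.integralClosure_le_of_le (adjoin_mem hv) ⟨f, hf⟩)

theorem linearIndependent_of_span [FiniteDimensional K⟮x⟯ F]
    {b : Fin (Module.finrank K⟮x⟯ F) → F}
    (hspan : Submodule.span (Algebra.adjoin K {x}) (Set.range b) =
      Subalgebra.toSubmodule (integralClosure (Algebra.adjoin K {x}) F)) :
    LinearIndependent K⟮x⟯ b := by
  apply linearIndependent_of_top_le_span_of_card_eq_finrank
  · intro f _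
    obtain ⟨y, hy0, hy⟩ := exists_integral_multiples (Algebra.adjoin K {x}) K⟮x⟯ {f}
    have h1 : y • f ∈ Submodule.span (Algebra.adjoin K {x}) (Set.range b) := by
      rw [hspan]
      exact hy f (by simp)
    have h2 : y • f ∈ Submodule.span K⟮x⟯ (Set.range b) :=
      Submodule.span_le_restrictScalars (Algebra.adjoin K {x}) K⟮x⟯ (Set.range b) h1
    have h3 : algebraMap (Algebra.adjoin K {x}) K⟮x⟯ y ≠ 0 := by
      rwa [ne_eq, FaithfulSMul.algebraMap_eq_zero_iff]
    have h4 : f = (algebraMap (Algebra.adjoin K {x}) K⟮x⟯ y)⁻¹ • (y • f) := by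
      rw [← algebraMap_smul K⟮x⟯ y f, smul_smul, inv_mul_cancel₀ h3, one_smul]
    rw [h4]
    exact Submodule.smul_mem _ _ h2
  · simp

theorem coe_gen_zpow_mul (n : ℤ) (q : K⟮x⟯) :
    ((AdjoinSimple.gen K x ^ n * q : K⟮x⟯) : F) = x ^ n * q := by
  have h : algebraMap K⟮x⟯ F (AdjoinSimple.gen K x ^ n * q) = x ^ n * q := by
    rw [map_mul, map_zpow₀]
    rfl
  exact h

/-- A family generating the integral closure of `K[x]` whose leading coefficients at infinity are
independent. -/
structure IsRed (x : F) {ι : Type*} [Fintype ι] (b : ι → F) (a : ι → ℕ) : Prop where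
  span : Submodule.span (Algebra.adjoin K {x}) (Set.range b) =
      Subalgebra.toSubmodule (integralClosure (Algebra.adjoin K {x}) F)
  mem : ∀ i, b i ∈ VInf (K := K) x (a i)
  lead : ∀ c : ι → K,
    (∑ i, algebraMap K F (c i) * (x ^ (-(a i : ℤ)) * b i)) ∈ VInf (K := K) x (-1) → c = 0

variable [IsAlgClosed K] [FunctionField K F] (hx : Transcendental K x) [FiniteDimensional K⟮x⟯ F]
  [Algebra.IsSeparable K⟮x⟯ F]

include hx

theorem exists_isRed : ∃ (b : Fin (Module.finrank K⟮x⟯ F) → F)
    (a : Fin (Module.finrank K⟮x⟯ F) → ℕ), IsRed (K := K) x b a := by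
  classical
  have hx0 : x ≠ 0 := by
    rintro rfl
    exact hx isAlgebraic_zero
  have hex : ∃ S : ℕ, ∃ (b : Fin (Module.finrank K⟮x⟯ F) → F)
      (a : Fin (Module.finrank K⟮x⟯ F) → ℕ),
      Submodule.span (Algebra.adjoin K {x}) (Set.range b) =
        Subalgebra.toSubmodule (integralClosure (Algebra.adjoin K {x}) F) ∧
      (∀ i, b i ∈ VInf (K := K) x (a i)) ∧ ∑ i, a i = S := by
    have := Fermat.FF.adjoin_isPrincipalIdealRing hx
    have hfree : Module.Free (Algebra.adjoin K {x}) (integralClosure (Algebra.adjoin K {x}) F) :=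
      IsIntegralClosure.module_free (Algebra.adjoin K {x}) K⟮x⟯ F _
    have hfin : Module.Finite (Algebra.adjoin K {x}) (integralClosure (Algebra.adjoin K {x}) F) :=
      IsIntegralClosure.finite (Algebra.adjoin K {x}) K⟮x⟯ F _
    have hrank : Module.finrank (Algebra.adjoin K {x})
        (integralClosure (Algebra.adjoin K {x}) F) = Module.finrank K⟮x⟯ F :=
      IsIntegralClosure.rank (Algebra.adjoin K {x}) K⟮x⟯ F _
    let bas := Module.finBasisOfFinrankEq _ _ hrank
    choose a ha using fun i => exists_mem_VInf (K := K) (x := x) (bas i : F)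
    refine ⟨_, fun i => (bas i : F), a, ?_, ha, rfl⟩
    have h1 := bas.span_eq
    have h2 := congrArg (Submodule.map
      (integralClosure (Algebra.adjoin K {x}) F).val.toLinearMap) h1
    rw [Submodule.map_span, ← Set.range_comp, Submodule.map_top] at h2
    refine h2.trans ?_
    ext f
    constructor
    · rintro ⟨g, rfl⟩
      exact g.2
    · intro h
      exact ⟨⟨f, h⟩, rfl⟩
  obtain ⟨b, a, hspan, hmem, hsum⟩ := Nat.find_spec hex
  refine ⟨b, a, hspan, hmem, fun c hc => ?_⟩
  by_contra hne
  obtain ⟨j0, hj0⟩ : ∃ j, c j ≠ 0 := Function.ne_iff.mp hne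
  obtain ⟨j, hj, hmax⟩ := Finset.exists_max_image (Finset.univ.filter fun i => c i ≠ 0) a
    ⟨j0, by simp [hj0]⟩
  rw [Finset.mem_filter] at hj
  have hcj := hj.2
  -- the coefficients of the new element
  let r : Fin (Module.finrank K⟮x⟯ F) → Algebra.adjoin K {x} := fun i =>
    algebraMap K _ (c i) * ⟨x, Algebra.self_mem_adjoin_singleton K x⟩ ^ (a j - a i)
  have hr : ∀ i, algebraMap (Algebra.adjoin K {x}) F (r i) =
      algebraMap K F (c i) * x ^ (a j - a i) := fun i => rfl
  have h1 : ∑ i, r i • b i =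
      x ^ (a j : ℤ) * ∑ i, algebraMap K F (c i) * (x ^ (-(a i : ℤ)) * b i) := by
    rw [Finset.mul_sum]
    refine Finset.sum_congr rfl fun i _ => ?_
    rw [Algebra.smul_def, hr]
    by_cases hi : c i = 0
    · simp [hi]
    · have h2 : a i ≤ a j := hmax i (by simp [hi])
      have h3 : x ^ (a j - a i) = x ^ (a j : ℤ) * x ^ (-(a i : ℤ)) := by
        rw [← zpow_add₀ hx0, ← zpow_natCast]
        congr 1
        omega
      rw [h3]
      ring
  have h2 : ∑ i, r i • b i ∈ VInf (K := K) x (a j - 1) := by
    rw [h1, zpow_mul_mem_VInf_iff hx0]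
    rwa [show ((a j : ℤ) - 1 - a j) = -1 by ring]
  have h3 : ∑ i, r i • b i ∈ Submodule.span (Algebra.adjoin K {x}) (Set.range b) :=
    Submodule.sum_mem _ fun i _ => Submodule.smul_mem _ _ (Submodule.subset_span ⟨i, rfl⟩)
  have hrj : r j = algebraMap K _ (c j) := by
    show algebraMap K _ (c j) * _ ^ (a j - a j) = _
    rw [Nat.sub_self, pow_zero, mul_one]
  rcases Nat.eq_zero_or_pos (a j) with h0 | hpos
  · have h4 : ∑ i, r i • b i = 0 := by
      refine eq_zero_of_mem_VInf hx (fun v hv => ?_) (VInf_mono (by omega) h2)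
      rw [hspan] at h3
      exact integral_ord_nonneg hv h3
    have h5 := linearIndependent_of_span hspan
    rw [Fintype.linearIndependent_iff] at h5
    have h6 := h5 (fun i => algebraMap (Algebra.adjoin K {x}) K⟮x⟯ (r i)) (by
      simpa only [algebraMap_smul] using h4) j
    rw [FaithfulSMul.algebraMap_eq_zero_iff, hrj] at h6
    exact hcj ((map_eq_zero (algebraMap K (Algebra.adjoin K {x}))).mp h6)
  · have hlt : Nat.find hex - 1 < Nat.find hex := by
      have : a j ≤ ∑ i, a i := Finset.single_le_sum (fun _ _ => Nat.zero_le _) (Finset.mem_univ j)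
      omega
    apply Nat.find_min hex hlt
    refine ⟨Function.update b j (∑ i, r i • b i), Function.update a j (a j - 1), ?_, ?_, ?_⟩
    · rw [← hspan]
      apply le_antisymm
      · rw [Submodule.span_le]
        rintro _ ⟨i, rfl⟩
        rcases eq_or_ne i j with rfl | hij
        · rw [Function.update_self]
          exact h3
        · rw [Function.update_of_ne hij]
          exact Submodule.subset_span ⟨i, rfl⟩
      · rw [Submodule.span_le]
        rintro _ ⟨i, rfl⟩
        set S := Submodule.span (Algebra.adjoin K {x})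
          (Set.range (Function.update b j (∑ i, r i • b i))) with hS
        have hmemS : ∀ i, i ≠ j → b i ∈ S := fun i hij =>
          Submodule.subset_span ⟨i, by rw [Function.update_of_ne hij]⟩
        rcases eq_or_ne i j with rfl | hij
        · have h4 : ∑ j, r j • b j ∈ S := Submodule.subset_span ⟨i, by rw [Function.update_self]⟩
          rw [← Finset.add_sum_erase _ _ (Finset.mem_univ i)] at h4
          have h5 : ∑ x_1 ∈ Finset.univ.erase i, r x_1 • b x_1 ∈ S :=
            Submodule.sum_mem _ fun k hk => Submodule.smul_mem _ _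
              (hmemS k (Finset.ne_of_mem_erase hk))
          have h6 : r i • b i ∈ S := (Submodule.add_mem_iff_left _ h5).mp h4
          have h7 : b i = algebraMap K (Algebra.adjoin K {x}) (c i)⁻¹ • r i • b i := by
            rw [hrj, smul_smul, ← map_mul, inv_mul_cancel₀ hcj, map_one, one_smul]
          rw [h7]
          exact Submodule.smul_mem _ _ h6
        · exact hmemS i hij
    · intro i
      rcases eq_or_ne i j with rfl | hij
      · rw [Function.update_self, Function.update_self]
        rw [show ((a i - 1 : ℕ) : ℤ) = a i - 1 by omega]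
        exact h2
      · rw [Function.update_of_ne hij, Function.update_of_ne hij]
        exact hmem i
    · rw [Finset.sum_update_of_mem (Finset.mem_univ j), ← hsum,
        ← Finset.add_sum_erase _ a (Finset.mem_univ j), Finset.sdiff_singleton_eq_erase]
      omega

omit [Algebra.IsSeparable K⟮x⟯ F] in
/-- orders at infinity in terms of the coordinates in a reduced basis -/
theorem sum_mem_VInf_iff {ι : Type*} [Fintype ι] {b : ι → F} {a : ι → ℕ}
    (hb : IsRed (K := K) x b a) (q : ι → K⟮x⟯) (m : ℤ) :
    (∑ i, q i • b i) ∈ VInf (K := K) x m ↔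
      ∀ i, ((q i : K⟮x⟯) : F) ∈ VInf (K := K) x (m - a i) := by
  classical
  have hx0 : x ≠ 0 := by
    rintro rfl
    exact hx isAlgebraic_zero
  constructor
  · intro h
    by_contra hcon
    push Not at hcon
    obtain ⟨i₁, hi₁⟩ := hcon
    have hg0 : AdjoinSimple.gen K x ≠ 0 := by
      intro h0
      apply hx0
      exact congrArg Subtype.val h0
    let Q : ι → K⟮x⟯ := fun i => AdjoinSimple.gen K x ^ (a i : ℤ) * q i
    have hQc : ∀ i, ((Q i : K⟮x⟯) : F) = x ^ (a i : ℤ) * q i := fun i =>
      coe_gen_zpow_mul _ _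
    have hQ : ∀ i M, ((Q i : K⟮x⟯) : F) ∈ VInf (K := K) x M ↔
        ((q i : K⟮x⟯) : F) ∈ VInf (K := K) x (M - a i) := fun i M => by
      rw [hQc, zpow_mul_mem_VInf_iff hx0]
    rw [← hQ] at hi₁
    have hQi₁ : Q i₁ ≠ 0 := by
      intro h0
      rw [h0] at hi₁
      exact hi₁ (Submodule.zero_mem _)
    obtain ⟨i₀, hi₀, hmin⟩ := Finset.exists_min_image (Finset.univ.filter fun i => Q i ≠ 0)
      (fun i => (wInf hx).ord (Q i)) ⟨i₁, by simp [hQi₁]⟩
    rw [Finset.mem_filter] at hi₀
    set d := -(wInf hx).ord (Q i₀) with hd_def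
    have hd : ∀ i, ((Q i : K⟮x⟯) : F) ∈ VInf (K := K) x d := fun i => by
      rcases eq_or_ne (Q i) 0 with h0 | h0
      · rw [h0]
        exact Submodule.zero_mem _
      · rw [coe_mem_VInf_iff hx, hd_def, ← Fermat.FF.le_ord_iff _ h0]
        exact hmin i (by simp [h0])
    have hdm : m < d := by
      rw [coe_mem_VInf_iff hx] at hi₁
      have h1 : ¬ (-m ≤ (wInf hx).ord (Q i₁)) := by
        rw [Fermat.FF.le_ord_iff _ hQi₁, neg_neg]
        exact hi₁
      have h2 := hmin i₁ (by simp [hQi₁])
      omega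
    have hc : ∀ i, ∃ c : K, ((AdjoinSimple.gen K x ^ (-d) * Q i : K⟮x⟯) : F) - algebraMap K F c ∈
        VInf (K := K) x (-1) := fun i => by
      apply exists_leading hx
      rw [coe_gen_zpow_mul, zpow_mul_mem_VInf_iff hx0, zero_sub, neg_neg]
      exact hd i
    choose c hc using hc
    have hcoe : ∀ i, ((AdjoinSimple.gen K x ^ (-d) * Q i : K⟮x⟯) : F) =
        x ^ (-d) * (x ^ (a i : ℤ) * q i) := fun i => by
      rw [← hQc, coe_gen_zpow_mul]
    have hc0 := hb.lead c ?_
    · have h1 := hc i₀
      rw [hc0, Pi.zero_apply, map_zero, sub_zero, coe_mem_VInf_iff hx] at h1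
      have h2 : AdjoinSimple.gen K x ^ (-d) * Q i₀ ≠ 0 :=
        mul_ne_zero (zpow_ne_zero _ hg0) hi₀.2
      rw [show (-1 : ℤ) = -(1 : ℤ) from rfl, ← Fermat.FF.le_ord_iff _ h2,
        (wInf hx).ord_mul (zpow_ne_zero _ hg0) hi₀.2, (wInf hx).ord_zpow, ord_gen_wInf] at h1
      omega
    · have h1 : ∑ i, algebraMap K F (c i) * (x ^ (-(a i : ℤ)) * b i) =
          x ^ (-d) * (∑ i, q i • b i) -
          ∑ i, (((AdjoinSimple.gen K x ^ (-d) * Q i : K⟮x⟯) : F) - algebraMap K F (c i)) *
            (x ^ (-(a i : ℤ)) * b i) := by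
        rw [Finset.mul_sum, ← Finset.sum_sub_distrib]
        refine Finset.sum_congr rfl fun i _ => ?_
        rw [hcoe, Algebra.smul_def]
        have h2 : x ^ (a i : ℤ) * x ^ (-(a i : ℤ)) = 1 := by
          rw [← zpow_add₀ hx0, add_neg_cancel, zpow_zero]
        have h3 : algebraMap K⟮x⟯ F (q i) = (q i : F) := rfl
        rw [h3]
        linear_combination (x ^ (-d) * (q i : F) * b i) * h2
      rw [h1]
      apply Submodule.sub_mem
      · rw [zpow_mul_mem_VInf_iff hx0]
        exact VInf_mono (by omega) h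
      · refine Submodule.sum_mem _ fun i _ => ?_
        have h2 : x ^ (-(a i : ℤ)) * b i ∈ VInf (K := K) x 0 := by
          rw [zpow_mul_mem_VInf_iff hx0, zero_sub, neg_neg]
          exact hb.mem i
        have := mul_mem_VInf (hc i) h2
        rwa [add_zero] at this
  · intro h
    refine Submodule.sum_mem _ fun i _ => ?_
    have := mul_mem_VInf (h i) (hb.mem i)
    rw [sub_add_cancel] at this
    exact this

omit [Algebra.IsSeparable K⟮x⟯ F] in
theorem mem_iff_exists_poly {q : K⟮x⟯} {N : ℕ} :
    (q ∈ (algebraMap (Algebra.adjoin K {x}) K⟮x⟯).range ∧ (q : F) ∈ VInf (K := K) x (N - 1)) ↔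
      ∃ p ∈ degreeLT K N, (q : F) = aeval x p := by
  constructor
  · rintro ⟨⟨r, rfl⟩, h⟩
    have hr : (r : F) ∈ (aeval (R := K) x).range := by
      rw [← Algebra.adjoin_singleton_eq_range_aeval]
      exact r.2
    obtain ⟨p, hp⟩ := hr
    have hp' : ((algebraMap (Algebra.adjoin K {x}) K⟮x⟯ r : K⟮x⟯) : F) = aeval x p := hp.symm
    refine ⟨p, ?_, hp'⟩
    rw [hp'] at h
    rw [mem_degreeLT]
    rcases eq_or_ne p 0 with rfl | hp0
    · rw [degree_zero]
      exact WithBot.bot_lt_coe N
    · obtain ⟨v, hv⟩ := exists_pole (K := K) hx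
      have h1 := (mem_VInf_iff_ord.mp h v hv).resolve_left (aeval_ne_zero hx hp0)
      rw [ord_aeval hv hp0] at h1
      have h2 : (p.natDegree : ℤ) ≤ N - 1 := by nlinarith
      rw [degree_eq_natDegree hp0]
      exact_mod_cast (by omega : (p.natDegree : ℤ) < N)
  · rintro ⟨p, hp, h⟩
    constructor
    · refine ⟨⟨aeval x p, aeval_mem_adjoin_singleton K x⟩, ?_⟩
      apply Subtype.ext
      exact h.symm
    · rw [h, mem_VInf_iff_ord]
      intro v hv
      rcases eq_or_ne p 0 with rfl | hp0
      · left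
        simp
      · right
        rw [ord_aeval hv hp0]
        rw [mem_degreeLT, degree_eq_natDegree hp0] at hp
        have h2 : (p.natDegree : ℤ) < N := by exact_mod_cast hp
        nlinarith

omit [IsAlgClosed K] [FunctionField K F] [FiniteDimensional K⟮x⟯ F]
  [Algebra.IsSeparable K⟮x⟯ F] in
/-- dimension of the space of combinations of a basis with coefficients of bounded degree. -/
theorem finrank_of_repr {ι : Type*} [Fintype ι] (b : Module.Basis ι K⟮x⟯ F) (N : ι → ℕ)
    (S : Submodule K F)
    (hS : ∀ f, f ∈ S ↔ ∀ i, ∃ p ∈ degreeLT K (N i), ((b.repr f i : K⟮x⟯) : F) = aeval x p) :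
    Module.finrank K S = ∑ i, N i := by
  classical
  let Φ : ((i : ι) → degreeLT K (N i)) →ₗ[K] F :=
    { toFun := fun p => ∑ i, aeval x (p i : K[X]) * b i
      map_add' := fun p q => by
        rw [← Finset.sum_add_distrib]
        refine Finset.sum_congr rfl fun i _ => ?_
        rw [Pi.add_apply, Submodule.coe_add, map_add, add_mul]
      map_smul' := fun c p => by
        rw [RingHom.id_apply, Finset.smul_sum]
        refine Finset.sum_congr rfl fun i _ => ?_
        rw [Pi.smul_apply, Submodule.coe_smul, map_smul, smul_mul_assoc] }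
  have hΦ : ∀ p, Φ p = ∑ i, (aeval (AdjoinSimple.gen K x) (p i : K[X]) : K⟮x⟯) • b i := by
    intro p
    show ∑ i, aeval x (p i : K[X]) * b i = _
    refine Finset.sum_congr rfl fun i _ => ?_
    rw [Algebra.smul_def, ← aeval_algebraMap_apply]
    rfl
  have hcoe : ∀ p : K[X], ((aeval (AdjoinSimple.gen K x) p : K⟮x⟯) : F) = aeval x p := by
    intro p
    have := aeval_algebraMap_apply F (AdjoinSimple.gen K x) p
    exact this.symm
  have hrepr : ∀ p i, ((b.repr (Φ p) i : K⟮x⟯) : F) = aeval x (p i : K[X]) := by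
    intro p i
    rw [hΦ, Module.Basis.repr_sum_self, hcoe]
  have hinj : Function.Injective Φ := by
    intro p p' h
    funext i
    apply Subtype.ext
    have h1 := hrepr p i
    rw [h, hrepr p' i] at h1
    exact (transcendental_iff_injective.mp hx h1).symm
  have hrange : LinearMap.range Φ = S := by
    ext f
    rw [hS]
    constructor
    · rintro ⟨p, rfl⟩ i
      exact ⟨p i, (p i).2, hrepr p i⟩
    · intro h
      choose p hp hp' using h
      refine ⟨fun i => ⟨p i, hp i⟩, ?_⟩
      apply b.repr.injective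
      ext i
      rw [hrepr, hp']
  rw [← hrange, LinearMap.finrank_range_of_inj hinj, Module.finrank_pi_fintype]
  refine Finset.sum_congr rfl fun i _ => ?_
  rw [(degreeLTEquiv K (N i)).finrank_eq, Module.finrank_fin_fun]

end Fermat.Agent.RH
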