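import Mathlib
import Fermat.Agent.RH.Reduced
import Fermat.Agent.RR.Duality
import Fermat.Agent.FF.Rel

/-!
# The tame Riemann–Hurwitz formula for `genusFF` (any characteristic)
-/

set_option autoImplicit false

noncomputable section

open AlgebraicCurve IsDedekindDomain WithZero IsLocalRing Polynomial IntermediateField
open IntermediateField.algebraAdjoinAdjoin Fermat.Agent.RR

namespace Fermat.Agent.RH

section IntegralClosure

variable {K F : Type*} [Field K] [Field F] [Algebra K F]
variable {R : Type*} [CommRing R] [IsDomain R] [IsPrincipalIdealRing R] [Algebra K R]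
  [Algebra R F] [IsScalarTower K R F]
variable (k : Type*) [Field k] [Algebra R k] [IsFractionRing R k] [Algebra k F]
  [IsScalarTower R k F] [FiniteDimensional k F] [Algebra.IsSeparable k F]

include k in
/-- The integral closure is the intersection of the valuation rings above. -/
theorem mem_integralClosure_iff (f : F) : f ∈ integralClosure R F ↔
    ∀ v : Place K F, (∀ r : R, algebraMap R F r ∈ v.toValuationSubring) →
      f ∈ v.toValuationSubring := by
  constructor
  · intro hf v hv
    exact Fermat.FF.integralClosure_le_of_le hv ⟨f, hf⟩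
  · intro h
    have : FaithfulSMul R F := Fermat.FF.faithful_of_tower k
    have : IsDedekindDomain (integralClosure R F) := integralClosure.isDedekindDomain R k F
    have : IsFractionRing (integralClosure R F) F :=
      integralClosure.isFractionRing_of_finite_extension k F
    obtain ⟨b, hb⟩ := HeightOneSpectrum.mem_integers_of_valuation_le_one
      (R := integralClosure R F) F f (fun P => by
        have h1 := h (Place.ofHeightOneSpectrum (K := K) P) (fun r => by
          rw [Place.ofHeightOneSpectrum_toValuationSubring, Valuation.mem_valuationSubring_iff,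
            IsScalarTower.algebraMap_apply R (integralClosure R F) F]
          exact P.valuation_le_one _)
        rwa [Place.ofHeightOneSpectrum_toValuationSubring,
          Valuation.mem_valuationSubring_iff] at h1)
    rw [← hb]
    exact b.2

end IntegralClosure

variable {K F : Type*} [Field K] [Field F] [Algebra K F] {x : F} [IsAlgClosed K]
  [FunctionField K F] (hx : Transcendental K x) [FiniteDimensional K⟮x⟯ F]
  [Algebra.IsSeparable K⟮x⟯ F]

section AtInfinity

attribute [local instance] Fermat.FF.Rel.isScalarTower_place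

/-- the local ring of `K(x)` at infinity -/
abbrev OInf : ValuationSubring K⟮x⟯ := (wInf (K := K) hx).toValuationSubring

omit [Algebra.IsSeparable K⟮x⟯ F] in
theorem forall_OInf_mem_iff (v : Place K F) :
    (∀ r : OInf hx, algebraMap (OInf hx) F r ∈ v.toValuationSubring) ↔ v.ord x < 0 := by
  rw [← restrict_eq_wInf_iff hx]
  constructor
  · intro h
    symm
    apply Fermat.FF.place_eq_of_le
    intro r hr
    exact h ⟨r, hr⟩
  · intro h r
    have h1 : (r : K⟮x⟯) ∈ (v.restrict K⟮x⟯).toValuationSubring := by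
      rw [h]
      exact r.2
    exact h1

theorem mem_integralClosure_OInf_iff (f : F) :
    f ∈ integralClosure (OInf hx) F ↔ f ∈ VInf (K := K) x 0 := by
  rw [mem_integralClosure_iff (K := K) K⟮x⟯]
  constructor
  · intro h v hv
    have h1 := h v ((forall_OInf_mem_iff hx v).mpr hv)
    rw [Fermat.FF.mem_iff_val_le_one] at h1
    simpa using h1
  · intro h v hv
    rw [Fermat.FF.mem_iff_val_le_one]
    simpa using h v ((forall_OInf_mem_iff hx v).mp hv)

omit [Algebra.IsSeparable K⟮x⟯ F] in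
theorem ord_algebraMap_irreducible {ϖ : OInf hx} (hϖ : Irreducible ϖ) {v : Place K F}
    (hv : v.ord x < 0) : v.ord (algebraMap (OInf hx) F ϖ) = -v.ord x := by
  have h1 := ord_coe_eq hx hv (ϖ : K⟮x⟯)
  rw [(wInf hx).ord_coe_irreducible hϖ, mul_one] at h1
  exact h1

omit [Algebra.IsSeparable K⟮x⟯ F] in
theorem mem_fiberSet_OInf_iff {ϖ : OInf hx} (hϖ : Irreducible ϖ) (v : Place K F) :
    v ∈ Fermat.FF.fiberSet K F ϖ ↔ v.ord x < 0 := by
  constructor
  · intro h
    exact (forall_OInf_mem_iff hx v).mp h.1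
  · intro h
    refine ⟨(forall_OInf_mem_iff hx v).mpr h, ?_⟩
    rw [Fermat.FF.val_lt_one_iff, ord_algebraMap_irreducible hx hϖ h]
    right
    omega

omit [Algebra.IsSeparable K⟮x⟯ F] in
theorem residue_OInf {ϖ : OInf hx} (hϖ : Irreducible ϖ) (r : OInf hx) :
    ∃ c : K, ϖ ∣ r - algebraMap K (OInf hx) c := by
  have hr : ((r : K⟮x⟯) : F) ∈ VInf (K := K) x 0 := by
    rw [coe_mem_VInf_iff hx]
    exact (Fermat.FF.mem_iff_val_le_one _ _).mp r.2
  obtain ⟨c, hc⟩ := exists_leading hx hr
  refine ⟨c, ?_⟩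
  have h1 : ((r : K⟮x⟯) : F) - algebraMap K F c =
      (((r - algebraMap K (OInf hx) c : OInf hx) : K⟮x⟯) : F) := rfl
  rw [h1, coe_mem_VInf_iff hx] at hc
  have h2 : r - algebraMap K (OInf hx) c ∈ maximalIdeal (OInf hx) := by
    rw [Fermat.FF.mem_maximalIdeal_iff]
    refine hc.trans_lt ?_
    rw [← exp_zero, exp_lt_exp]
    norm_num
  rwa [hϖ.maximalIdeal_eq, Ideal.mem_span_singleton] at h2

include hx in
/-- The trace criterion at infinity. -/
theorem trace_inf_iff (htame : ∀ v : Place K F, v.ord x < 0 → ((v.ord x : ℤ) : K) ≠ 0)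
    {f : F} (hf : f ≠ 0) :
    (∀ g ∈ VInf (K := K) x 0,
        ((Algebra.trace K⟮x⟯ F (f * g) : K⟮x⟯) : F) ∈ VInf (K := K) x 0) ↔
      ∀ v : Place K F, v.ord x < 0 → v.ord x + 1 ≤ v.ord f := by
  have h := trace_mem_iff_ord (K := K) (F := F) (R := OInf hx) K⟮x⟯
    (fun ϖ hϖ r => residue_OInf hx hϖ r)
    (fun ϖ hϖ v hv => by
      rw [mem_fiberSet_OInf_iff hx hϖ] at hv
      rw [ord_algebraMap_irreducible hx hϖ hv]
      push_cast
      exact neg_ne_zero.mpr (htame v hv)) hf
  have h1 : (∀ b : integralClosure (OInf hx) F,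
      Algebra.trace K⟮x⟯ F (f * b) ∈ (algebraMap (OInf hx) K⟮x⟯).range) ↔
      (∀ g ∈ VInf (K := K) x 0,
        ((Algebra.trace K⟮x⟯ F (f * g) : K⟮x⟯) : F) ∈ VInf (K := K) x 0) := by
    have h2 : ∀ q : K⟮x⟯, q ∈ (algebraMap (OInf hx) K⟮x⟯).range ↔
        (q : F) ∈ VInf (K := K) x 0 := fun q => by
      rw [coe_mem_VInf_iff hx, exp_zero, ← Fermat.FF.mem_iff_val_le_one]
      constructor
      · rintro ⟨r, rfl⟩
        exact r.2
      · intro h
        exact ⟨⟨q, h⟩, rfl⟩
    constructor
    · intro h g hg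
      rw [← h2]
      exact h ⟨g, (mem_integralClosure_OInf_iff hx g).mpr hg⟩
    · intro h b
      rw [h2]
      exact h b ((mem_integralClosure_OInf_iff hx _).mp b.2)
  rw [← h1, h]
  constructor
  · intro h v hv
    obtain ⟨ϖ, hϖ⟩ := IsDiscreteValuationRing.exists_irreducible (OInf hx)
    have := h ϖ hϖ v ((mem_fiberSet_OInf_iff hx hϖ v).mpr hv)
    rw [ord_algebraMap_irreducible hx hϖ hv] at this
    omega
  · intro h ϖ hϖ v hv
    rw [mem_fiberSet_OInf_iff hx hϖ] at hv
    rw [ord_algebraMap_irreducible hx hϖ hv]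
    have := h v hv
    omega

end AtInfinity

section Finite

omit [IsAlgClosed K] [FunctionField K F] [FiniteDimensional K⟮x⟯ F]
  [Algebra.IsSeparable K⟮x⟯ F] in
theorem sub_ne_zero_of_transcendental (hx : Transcendental K x) (a : K) :
    x - algebraMap K F a ≠ 0 := by
  intro h
  rw [sub_eq_zero] at h
  exact hx (h ▸ isAlgebraic_algebraMap a)

omit [FunctionField K F] [FiniteDimensional K⟮x⟯ F] [Algebra.IsSeparable K⟮x⟯ F] in
/-- irreducible elements of `K[x]` -/
theorem exists_eq_smul_sub (hx : Transcendental K x) {ϖ : Algebra.adjoin K {x}}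
    (hϖ : Irreducible ϖ) : ∃ a c : K, c ≠ 0 ∧
      algebraMap (Algebra.adjoin K {x}) F ϖ = algebraMap K F c * (x - algebraMap K F a) := by
  obtain ⟨P, rfl⟩ := (Polynomial.algEquivOfTranscendental K x hx).surjective ϖ
  rw [MulEquiv.irreducible_iff (Polynomial.algEquivOfTranscendental K x hx)] at hϖ
  have h1 := IsAlgClosed.degree_eq_one_of_irreducible K hϖ
  have h2 := eq_X_add_C_of_degree_eq_one h1
  have hc : P.leadingCoeff ≠ 0 := leadingCoeff_ne_zero.mpr hϖ.ne_zero
  refine ⟨-(P.coeff 0) / P.leadingCoeff, P.leadingCoeff, hc, ?_⟩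
  have h3 : algebraMap (Algebra.adjoin K {x}) F (Polynomial.algEquivOfTranscendental K x hx P) =
      aeval x P := by
    show ((Polynomial.algEquivOfTranscendental K x hx P : Algebra.adjoin K {x}) : F) = _
    rw [Polynomial.algEquivOfTranscendental_apply]
    exact Polynomial.aeval_subalgebra_coe _ _ _
  rw [h3]
  conv_lhs => rw [h2]
  rw [map_add, map_mul, aeval_C, aeval_C, aeval_X, map_div₀, map_neg]
  have hc' : algebraMap K F P.leadingCoeff ≠ 0 := by simpa using hc
  field_simp
  ring

omit [FiniteDimensional K⟮x⟯ F] [Algebra.IsSeparable K⟮x⟯ F] in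
/-- Every place where `x` is regular lies above some `a ∈ K`. -/
theorem exists_ord_sub_pos (hx : Transcendental K x) {v : Place K F} (hv : 0 ≤ v.ord x) :
    ∃ a : K, 0 < v.ord (x - algebraMap K F a) := by
  have hx0 : x ≠ 0 := by
    rintro rfl
    exact hx isAlgebraic_zero
  obtain ⟨a, ha⟩ := RR.exists_const_of_mem v ((Fermat.FF.mem_iff_ord v hx0).mpr hv)
  exact ⟨a, ha.resolve_left (sub_ne_zero_of_transcendental hx a)⟩

omit [IsAlgClosed K] [FunctionField K F] [FiniteDimensional K⟮x⟯ F]
  [Algebra.IsSeparable K⟮x⟯ F] in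
theorem forall_adjoin_mem_iff (hx : Transcendental K x) (v : Place K F) :
    (∀ r : Algebra.adjoin K {x}, algebraMap (Algebra.adjoin K {x}) F r ∈ v.toValuationSubring) ↔
      0 ≤ v.ord x := by
  have hx0 : x ≠ 0 := by
    rintro rfl
    exact hx isAlgebraic_zero
  constructor
  · intro h
    exact (Fermat.FF.mem_iff_ord v hx0).mp (h ⟨x, Algebra.self_mem_adjoin_singleton K x⟩)
  · exact adjoin_mem

omit [FunctionField K F] [FiniteDimensional K⟮x⟯ F] [Algebra.IsSeparable K⟮x⟯ F] in
theorem exists_ord_eq_of_irreducible (hx : Transcendental K x) {ϖ : Algebra.adjoin K {x}}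
    (hϖ : Irreducible ϖ) : ∃ a : K, ∀ v : Place K F,
      v.ord (algebraMap (Algebra.adjoin K {x}) F ϖ) = v.ord (x - algebraMap K F a) := by
  obtain ⟨a, c, hc, h⟩ := exists_eq_smul_sub hx hϖ
  refine ⟨a, fun v => ?_⟩
  rw [h, v.ord_mul (by simpa using hc) (sub_ne_zero_of_transcendental hx a),
    Fermat.FF.ord_algebraMap, zero_add]

omit [FunctionField K F] in
include hx in
/-- The trace criterion at the finite places. -/
theorem trace_fin_iff
    (htame : ∀ (v : Place K F) (a : K), 0 < v.ord (x - algebraMap K F a) →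
      ((v.ord (x - algebraMap K F a) : ℤ) : K) ≠ 0)
    {f : F} (hf : f ≠ 0) :
    (∀ g ∈ integralClosure (Algebra.adjoin K {x}) F,
        Algebra.trace K⟮x⟯ F (f * g) ∈ (algebraMap (Algebra.adjoin K {x}) K⟮x⟯).range) ↔
      ∀ (v : Place K F) (a : K), 0 < v.ord (x - algebraMap K F a) →
        -(v.ord (x - algebraMap K F a) - 1) ≤ v.ord f := by
  have hpir := Fermat.FF.adjoin_isPrincipalIdealRing hx
  have h := trace_mem_iff_ord (K := K) (F := F) (R := Algebra.adjoin K {x}) K⟮x⟯
    (fun ϖ hϖ r => ?_) (fun ϖ hϖ v hv => ?_) hf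
  · have h1 : (∀ b : integralClosure (Algebra.adjoin K {x}) F,
        Algebra.trace K⟮x⟯ F (f * b) ∈ (algebraMap (Algebra.adjoin K {x}) K⟮x⟯).range) ↔
        (∀ g ∈ integralClosure (Algebra.adjoin K {x}) F,
        Algebra.trace K⟮x⟯ F (f * g) ∈ (algebraMap (Algebra.adjoin K {x}) K⟮x⟯).range) :=
      ⟨fun h g hg => h ⟨g, hg⟩, fun h b => h b b.2⟩
    rw [← h1, h]
    constructor
    · intro h v a hva
      have := h (Fermat.FF.shiftGen x a) (Fermat.FF.shiftGen_irreducible hx a) v (by
        rw [Fermat.FF.fiberSet_shiftGen]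
        show v.adicValuation _ < 1
        rw [Fermat.FF.val_lt_one_iff]
        exact Or.inr hva)
      rwa [Fermat.FF.algebraMap_shiftGen] at this
    · intro h ϖ hϖ v hv
      obtain ⟨a, ha⟩ := exists_ord_eq_of_irreducible hx hϖ
      rw [ha]
      apply h
      rw [← ha]
      have h2 := hv.2
      rw [Fermat.FF.val_lt_one_iff] at h2
      refine h2.resolve_left ?_
      intro h0
      obtain ⟨a, c, hc, h3⟩ := exists_eq_smul_sub hx hϖ
      rw [h3] at h0
      exact mul_ne_zero (by simpa using hc) (sub_ne_zero_of_transcendental hx a) h0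
  · obtain ⟨a, c, hc, h3⟩ := exists_eq_smul_sub hx hϖ
    have h4 : ϖ = algebraMap K (Algebra.adjoin K {x}) c * Fermat.FF.shiftGen x a :=
      Subtype.ext h3
    obtain ⟨d, hd⟩ := Fermat.FF.shiftGen_res hx a r
    refine ⟨d, ?_⟩
    rw [h4]
    exact (IsUnit.mul_left_dvd ((isUnit_iff_ne_zero.mpr hc).map _)).mpr hd
  · obtain ⟨a, ha⟩ := exists_ord_eq_of_irreducible hx hϖ
    rw [ha]
    apply htame
    rw [← ha]
    have h2 := hv.2
    rw [Fermat.FF.val_lt_one_iff] at h2
    refine h2.resolve_left ?_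
    intro h0
    obtain ⟨a, c, hc, h3⟩ := exists_eq_smul_sub hx hϖ
    rw [h3] at h0
    exact mul_ne_zero (by simpa using hc) (sub_ne_zero_of_transcendental hx a) h0

end Finite

section Dimension

variable {ι : Type*} [Fintype ι] {b : Module.Basis ι K⟮x⟯ F} {a : ι → ℕ}

omit [IsAlgClosed K] [FunctionField K F] [FiniteDimensional K⟮x⟯ F]
  [Algebra.IsSeparable K⟮x⟯ F] in
theorem mem_integralClosure_iff_repr (hb : IsRed (K := K) x b a) (f : F) :
    f ∈ integralClosure (Algebra.adjoin K {x}) F ↔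
      ∀ i, b.repr f i ∈ (algebraMap (Algebra.adjoin K {x}) K⟮x⟯).range := by
  have h : f ∈ integralClosure (Algebra.adjoin K {x}) F ↔
      f ∈ Submodule.span (Algebra.adjoin K {x}) (Set.range b) := by
    rw [hb.span]
    exact Iff.rfl
  rw [h, Module.Basis.mem_span_iff_repr_mem]
  rfl

omit [Algebra.IsSeparable K⟮x⟯ F] in
include hx in
theorem mem_VInf_iff_repr (hb : IsRed (K := K) x b a) (f : F) (m : ℤ) :
    f ∈ VInf (K := K) x m ↔
      ∀ i, ((b.repr f i : K⟮x⟯) : F) ∈ VInf (K := K) x (m - a i) := by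
  conv_lhs => rw [← b.sum_repr f]
  exact sum_mem_VInf_iff hx hb _ m

include hx in
/-- `ℓ(m (x)_∞)` for large `m`. -/
theorem finrank_nsmul_polesOf (hb : IsRed (K := K) x b a) {M : ℕ} (hM : ∀ i, a i ≤ M) :
    Module.finrank K (riemannRochSpace (M • polesOf (K := K) x)) = ∑ i, (M + 1 - a i) := by
  have hpir := Fermat.FF.adjoin_isPrincipalIdealRing hx
  apply finrank_of_repr hx b
  intro f
  have h1 : ∀ i, (∃ p ∈ degreeLT K (M + 1 - a i), ((b.repr f i : K⟮x⟯) : F) = aeval x p) ↔
      (b.repr f i ∈ (algebraMap (Algebra.adjoin K {x}) K⟮x⟯).range ∧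
        ((b.repr f i : K⟮x⟯) : F) ∈ VInf (K := K) x ((M : ℤ) - a i)) := fun i => by
    rw [← mem_iff_exists_poly hx]
    have := hM i
    rw [show (((M + 1 - a i : ℕ) : ℤ) - 1) = (M : ℤ) - a i by omega]
  simp only [h1]
  rw [forall_and, ← mem_integralClosure_iff_repr hb, ← mem_VInf_iff_repr hx hb,
    mem_riemannRochSpace_iff, mem_integralClosure_iff (K := K) K⟮x⟯, mem_VInf_iff_ord]
  have hpoles : ∀ v : Place K F, (M • polesOf (K := K) x) v = M * max (-v.ord x) 0 := fun v => by
    rw [Finsupp.smul_apply, polesOf_apply, nsmul_eq_mul]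
  rcases eq_or_ne f 0 with rfl | hf
  · simp [zero_mem]
  simp only [hpoles, or_iff_right hf, forall_adjoin_mem_iff hx, Fermat.FF.mem_iff_ord _ hf]
  constructor
  · intro h
    constructor
    · intro v hv
      have := h v
      rw [max_eq_right (by omega)] at this
      simpa using this
    · intro v hv
      have := h v
      rw [max_eq_left (by omega)] at this
      linarith
  · rintro ⟨h, h'⟩ v
    rcases le_or_gt 0 (v.ord x) with hv | hv
    · rw [max_eq_right (by omega)]
      simpa using h v hv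
    · rw [max_eq_left (by omega)]
      have := h' v hv
      linarith

omit [IsAlgClosed K] [FunctionField K F] [Algebra.IsSeparable K⟮x⟯ F]
  [FiniteDimensional K⟮x⟯ F] in
theorem forall_trace_mem_range_iff (hb : IsRed (K := K) x b a) (f : F) :
    (∀ g ∈ integralClosure (Algebra.adjoin K {x}) F,
        Algebra.trace K⟮x⟯ F (f * g) ∈ (algebraMap (Algebra.adjoin K {x}) K⟮x⟯).range) ↔
      ∀ i, Algebra.trace K⟮x⟯ F (f * b i) ∈ (algebraMap (Algebra.adjoin K {x}) K⟮x⟯).range := by
  constructor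
  · intro h i
    apply h
    have h1 : b i ∈ Submodule.span (Algebra.adjoin K {x}) (Set.range b) :=
      Submodule.subset_span ⟨i, rfl⟩
    rw [hb.span] at h1
    exact h1
  · intro h g hg
    have h1 : g ∈ Submodule.span (Algebra.adjoin K {x}) (Set.range b) := by
      rw [hb.span]
      exact hg
    clear hg
    induction h1 using Submodule.span_induction with
    | mem g hg =>
      obtain ⟨i, rfl⟩ := hg
      exact h i
    | zero => simp
    | add g g' _ _ h1 h2 =>
      rw [mul_add, map_add]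
      exact add_mem h1 h2
    | smul r g _ h1 =>
      rw [mul_smul_comm, ← algebraMap_smul K⟮x⟯ r, map_smul, smul_eq_mul]
      exact mul_mem ⟨r, rfl⟩ h1

omit [Algebra.IsSeparable K⟮x⟯ F] in
include hx in
theorem forall_trace_mem_VInf_iff (hb : IsRed (K := K) x b a) (f : F) (M : ℕ) :
    (∀ g ∈ VInf (K := K) x 0,
        ((Algebra.trace K⟮x⟯ F (x ^ (-(M : ℤ)) * f * g) : K⟮x⟯) : F) ∈ VInf (K := K) x 0) ↔
      ∀ i, ((Algebra.trace K⟮x⟯ F (f * b i) : K⟮x⟯) : F) ∈ VInf (K := K) x (M + a i) := by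
  have hx0 : x ≠ 0 := by
    rintro rfl
    exact hx isAlgebraic_zero
  have hsm : ∀ (n : ℤ) (q : K⟮x⟯) (g : F), (Algebra.trace K⟮x⟯ F) (x ^ n * (q * g)) =
      AdjoinSimple.gen K x ^ n * (q * Algebra.trace K⟮x⟯ F g) := fun n q g => by
    have h1 : x ^ n * (q * g) = (AdjoinSimple.gen K x ^ n * q) • g := by
      rw [Algebra.smul_def, show algebraMap K⟮x⟯ F (AdjoinSimple.gen K x ^ n * q) =
        ((AdjoinSimple.gen K x ^ n * q : K⟮x⟯) : F) from rfl, coe_gen_zpow_mul]
      ring
    rw [h1, map_smul, smul_eq_mul, mul_assoc]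
  constructor
  · intro h i
    have h1 := h (x ^ (-(a i : ℤ)) * b i) (by
      rw [zpow_mul_mem_VInf_iff hx0, zero_sub, neg_neg]
      exact hb.mem i)
    have h2 : x ^ (-(M : ℤ)) * f * (x ^ (-(a i : ℤ)) * b i) =
        x ^ (-(M + a i : ℤ)) * (((1 : K⟮x⟯) : F) * (f * b i)) := by
      rw [neg_add, zpow_add₀ hx0]
      push_cast
      ring
    rw [h2, hsm, coe_gen_zpow_mul, one_mul, zpow_mul_mem_VInf_iff hx0, zero_sub, neg_neg] at h1
    exact h1
  · intro h g hg
    rw [mem_VInf_iff_repr hx hb] at hg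
    have h2 : x ^ (-(M : ℤ)) * f * g =
        ∑ i, x ^ (-(M : ℤ)) * (((b.repr g i : K⟮x⟯) : F) * (f * b i)) := by
      conv_lhs => rw [← b.sum_repr g]
      rw [Finset.mul_sum]
      refine Finset.sum_congr rfl fun i _ => ?_
      rw [Algebra.smul_def]
      have : algebraMap K⟮x⟯ F (b.repr g i) = ((b.repr g i : K⟮x⟯) : F) := rfl
      rw [this]
      ring
    rw [h2, map_sum]
    have h3 : ((∑ i, (Algebra.trace K⟮x⟯ F) (x ^ (-(M : ℤ)) *
        (((b.repr g i : K⟮x⟯) : F) * (f * b i))) : K⟮x⟯) : F) =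
        ∑ i, x ^ (-(M : ℤ)) * (((b.repr g i : K⟮x⟯) : F) *
          ((Algebra.trace K⟮x⟯ F (f * b i) : K⟮x⟯) : F)) := by
      have := map_sum (algebraMap K⟮x⟯ F) (fun i => (Algebra.trace K⟮x⟯ F) (x ^ (-(M : ℤ)) *
        (((b.repr g i : K⟮x⟯) : F) * (f * b i)))) Finset.univ
      refine this.trans (Finset.sum_congr rfl fun i _ => ?_)
      rw [hsm]
      exact coe_gen_zpow_mul _ _
    rw [h3]
    refine Submodule.sum_mem _ fun i _ => ?_
    rw [zpow_mul_mem_VInf_iff hx0]
    have := mul_mem_VInf (hg i) (h i)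
    convert this using 1
    ring_nf

include hx in
/-- `ℓ(D + m (x)_∞)` for large `m`, where `D` is the different. -/
theorem finrank_add_nsmul_polesOf (hb : IsRed (K := K) x b a)
    (htame : ∀ (v : Place K F) (a : K), 0 < v.ord (x - algebraMap K F a) →
      ((v.ord (x - algebraMap K F a) : ℤ) : K) ≠ 0)
    (htame' : ∀ v : Place K F, v.ord x < 0 → ((v.ord x : ℤ) : K) ≠ 0)
    {D : Divisor K F}
    (hD : ∀ (v : Place K F) (a : K), 0 < v.ord (x - algebraMap K F a) →
      D v = v.ord (x - algebraMap K F a) - 1)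
    (hD' : ∀ v : Place K F, v.ord x < 0 → D v = -v.ord x - 1) (M : ℕ) :
    Module.finrank K (riemannRochSpace (D + M • polesOf (K := K) x)) = ∑ i, (M + a i + 1) := by
  classical
  have hx0 : x ≠ 0 := by
    rintro rfl
    exact hx isAlgebraic_zero
  have hpir := Fermat.FF.adjoin_isPrincipalIdealRing hx
  let b' := (Algebra.traceForm K⟮x⟯ F).dualBasis (traceForm_nondegenerate K⟮x⟯ F) b
  have hb' : ∀ f i, b'.repr f i = Algebra.trace K⟮x⟯ F (f * b i) := fun f i => by
    rw [LinearMap.BilinForm.dualBasis_repr_apply]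
    rfl
  apply finrank_of_repr hx b'
  intro f
  have h1 : ∀ i, (∃ p ∈ degreeLT K (M + a i + 1), ((b'.repr f i : K⟮x⟯) : F) = aeval x p) ↔
      (Algebra.trace K⟮x⟯ F (f * b i) ∈ (algebraMap (Algebra.adjoin K {x}) K⟮x⟯).range ∧
        ((Algebra.trace K⟮x⟯ F (f * b i) : K⟮x⟯) : F) ∈ VInf (K := K) x ((M : ℤ) + a i)) :=
      fun i => by
    rw [← hb', ← mem_iff_exists_poly hx]
    rw [show (((M + a i + 1 : ℕ) : ℤ) - 1) = (M : ℤ) + a i by push_cast; ring]
  simp only [h1]
  rw [forall_and, ← forall_trace_mem_range_iff hb, ← forall_trace_mem_VInf_iff hx hb,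
    mem_riemannRochSpace_iff]
  have hpoles : ∀ v : Place K F, (D + M • polesOf (K := K) x) v =
      D v + M * max (-v.ord x) 0 := fun v => by
    rw [Finsupp.add_apply, Finsupp.smul_apply, polesOf_apply, nsmul_eq_mul]
  rcases eq_or_ne f 0 with rfl | hf
  · simp [zero_mem]
  have hf' : x ^ (-(M : ℤ)) * f ≠ 0 := mul_ne_zero (zpow_ne_zero _ hx0) hf
  rw [trace_fin_iff hx htame hf, trace_inf_iff hx htame' hf']
  simp only [hpoles, or_iff_right hf]
  have hord : ∀ v : Place K F, v.ord (x ^ (-(M : ℤ)) * f) = -M * v.ord x + v.ord f := fun v => by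
    rw [v.ord_mul (zpow_ne_zero _ hx0) hf, v.ord_zpow]
  simp only [hord]
  constructor
  · intro h
    constructor
    · intro v c hv
      have h2 := h v
      have h3 : 0 ≤ v.ord x := by
        by_contra hneg
        push Not at hneg
        have h4 : v.ord (x - algebraMap K F c) = v.ord x := by
          rcases eq_or_ne c 0 with rfl | hc
          · simp
          · rw [sub_eq_add_neg, ← map_neg]
            exact Fermat.FF.ord_add_of_lt v hx0 (by simpa using hc)
              (by rw [Fermat.FF.ord_algebraMap]; exact hneg)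
        omega
      rw [max_eq_right (by omega), hD v c hv] at h2
      linarith
    · intro v hv
      have h2 := h v
      rw [max_eq_left (by omega), hD' v hv] at h2
      linarith
  · rintro ⟨h, h'⟩ v
    rcases le_or_gt 0 (v.ord x) with hv | hv
    · rw [max_eq_right (by omega)]
      obtain ⟨c, hc⟩ := exists_ord_sub_pos hx hv
      rw [hD v c hc]
      have := h v c hc
      linarith
    · rw [max_eq_left (by omega), hD' v hv]
      have := h' v hv
      linarith

end Dimension

include hx in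
/-- **Tame Riemann–Hurwitz** for a separable transcendental element `x` of a function field over an
algebraically closed field of any characteristic. -/
theorem tame_riemannHurwitz
    (htame : ∀ (v : Place K F) (a : K), 0 < v.ord (x - algebraMap K F a) →
      ((v.ord (x - algebraMap K F a) : ℤ) : K) ≠ 0)
    (htame' : ∀ v : Place K F, v.ord x < 0 → ((v.ord x : ℤ) : K) ≠ 0)
    {D : Divisor K F}
    (hD : ∀ (v : Place K F) (a : K), 0 < v.ord (x - algebraMap K F a) →
      D v = v.ord (x - algebraMap K F a) - 1)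
    (hD' : ∀ v : Place K F, v.ord x < 0 → D v = -v.ord x - 1) :
    2 * (genusFF K F : ℤ) - 2 = Divisor.degree D - 2 * Module.finrank K⟮x⟯ F := by
  obtain ⟨b₀, a, hb₀⟩ := exists_isRed (K := K) hx
  have hn0 : 0 < Module.finrank K⟮x⟯ F := Module.finrank_pos
  obtain ⟨b, hb⟩ : ∃ b : Module.Basis (Fin (Module.finrank K⟮x⟯ F)) K⟮x⟯ F,
      IsRed (K := K) x b a := by
    have : Nonempty (Fin (Module.finrank K⟮x⟯ F)) := ⟨⟨0, hn0⟩⟩
    refine ⟨basisOfLinearIndependentOfCardEqFinrank (linearIndependent_of_span hb₀.span)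
      (Fintype.card_fin _), ?_⟩
    rwa [coe_basisOfLinearIndependentOfCardEqFinrank]
  clear hb₀
  clear b₀
  generalize hn : Module.finrank K⟮x⟯ F = n at b a hb hn0 ⊢
  -- choose `M` large
  obtain ⟨M, hM1, hM2, hM3⟩ : ∃ M : ℕ, (∀ i, a i ≤ M) ∧
      (2 * (genusFF K F : ℤ) - 2 < M) ∧ (2 * (genusFF K F : ℤ) - 2 < Divisor.degree D + M) := by
    refine ⟨(∑ i, a i) + 2 * genusFF K F + (Divisor.degree D).natAbs, fun i => ?_, ?_, ?_⟩
    · have : a i ≤ ∑ i, a i := Finset.single_le_sum (fun _ _ => Nat.zero_le _) (Finset.mem_univ i)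
      omega
    · omega
    · omega
  have h1 := finrank_nsmul_polesOf hx hb hM1
  have h2 := finrank_add_nsmul_polesOf hx hb htame htame' hD hD' M
  have hdeg : Divisor.degree (M • polesOf (K := K) x) = M * n := by
    rw [map_nsmul, degree_polesOf hx, nsmul_eq_mul, hn]
  have hMn : (M : ℤ) ≤ M * n := by
    have : (1 : ℤ) ≤ n := by exact_mod_cast hn0
    nlinarith [Int.natCast_nonneg M]
  have h3 := finrank_riemannRochSpace_eq (K := K) (D := M • polesOf (K := K) x)
    (by rw [hdeg]; omega)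
  have h4 := finrank_riemannRochSpace_eq (K := K) (D := D + M • polesOf (K := K) x)
    (by rw [map_add, hdeg]; omega)
  rw [h1, hdeg] at h3
  rw [h2, map_add, hdeg] at h4
  have h5 : ((∑ i, (M + 1 - a i) : ℕ) : ℤ) = n * (M + 1) - ∑ i, (a i : ℤ) := by
    push_cast
    have : ∀ i, ((M + 1 - a i : ℕ) : ℤ) = (M + 1) - (a i : ℤ) := fun i => by
      have := hM1 i
      omega
    simp only [this, Finset.sum_sub_distrib]
    simp
  have h6 : ((∑ i, (M + a i + 1) : ℕ) : ℤ) = n * (M + 1) + ∑ i, (a i : ℤ) := by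
    push_cast
    simp only [Finset.sum_add_distrib]
    simp
    ring
  rw [h5] at h3
  rw [h6] at h4
  linarith

end Fermat.Agent.RH
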