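import Mathlib
import Fermat.Agent.RH.Main
import Fermat.Agent.RR.Corollaries
import Fermat.Agent.RR.Instance
import Fermat.Agent.FF.Hurwitz

/-!
# Consequences of the tame Riemann–Hurwitz formula: existence of the ramification divisor,
the formula in terms of cardinalities of fibres, and `genusFF = genus` in characteristic zero.
-/

set_option autoImplicit false

noncomputable section

open AlgebraicCurve IsDedekindDomain WithZero IsLocalRing Polynomial IntermediateField
open IntermediateField.algebraAdjoinAdjoin Fermat.Agent.RR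

namespace Fermat.Agent.RH

section FunctionField

variable {K F : Type*} [Field K] [Field F] [Algebra K F] {x : F} [IsAlgClosed K]
  [FunctionField K F] (hx : Transcendental K x) [FiniteDimensional K⟮x⟯ F]
  [Algebra.IsSeparable K⟮x⟯ F]

omit [IsAlgClosed K] [FiniteDimensional K⟮x⟯ F] [Algebra.IsSeparable K⟮x⟯ F] in
theorem ord_neg_finite (f : F) : {v : Place K F | v.ord f < 0}.Finite := by
  refine ((divOf (K := K) f).support.finite_toSet).subset fun v hv => ?_
  rw [Finset.mem_coe, Finsupp.mem_support_iff, divOf_apply]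
  exact (ne_of_lt hv)

omit [IsAlgClosed K] [FiniteDimensional K⟮x⟯ F] [Algebra.IsSeparable K⟮x⟯ F] in
theorem ord_pos_finite (f : F) : {v : Place K F | 0 < v.ord f}.Finite := by
  refine ((divOf (K := K) f).support.finite_toSet).subset fun v hv => ?_
  rw [Finset.mem_coe, Finsupp.mem_support_iff, divOf_apply]
  exact (ne_of_gt hv)

omit [IsAlgClosed K] [FunctionField K F] [FiniteDimensional K⟮x⟯ F]
  [Algebra.IsSeparable K⟮x⟯ F] in
include hx in
theorem ord_nonneg_of_ord_sub_pos {v : Place K F} {c : K}
    (hv : 0 < v.ord (x - algebraMap K F c)) : 0 ≤ v.ord x := by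
  have hx0 : x ≠ 0 := by
    rintro rfl
    exact hx isAlgebraic_zero
  by_contra hneg
  push Not at hneg
  have h4 : v.ord (x - algebraMap K F c) = v.ord x := by
    rcases eq_or_ne c 0 with rfl | hc
    · simp
    · rw [sub_eq_add_neg, ← map_neg]
      exact Fermat.FF.ord_add_of_lt v hx0 (by simpa using hc)
        (by rw [Fermat.FF.ord_algebraMap]; exact hneg)
  omega

omit [IsAlgClosed K] [FunctionField K F] [FiniteDimensional K⟮x⟯ F]
  [Algebra.IsSeparable K⟮x⟯ F] in
theorem unique_of_ord_sub_pos {v : Place K F} {c d : K}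
    (hc : 0 < v.ord (x - algebraMap K F c)) (hd : 0 < v.ord (x - algebraMap K F d)) : c = d := by
  by_contra hne
  have h1 : (x - algebraMap K F c) - (x - algebraMap K F d) = algebraMap K F (d - c) := by
    rw [map_sub]
    ring
  have h2 : algebraMap K F (d - c) ≠ 0 := by
    simpa [sub_eq_zero] using (Ne.symm hne)
  have h3 := RR.ord_sub v (f := x - algebraMap K F c) (g := x - algebraMap K F d)
    (by rw [h1]; exact h2)
  rw [h1, Fermat.FF.ord_algebraMap] at h3
  omega

include hx in
/-- Finiteness of ramification: existence of the different divisor. -/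
theorem exists_different
    (htame : ∀ (v : Place K F) (a : K), 0 < v.ord (x - algebraMap K F a) →
      ((v.ord (x - algebraMap K F a) : ℤ) : K) ≠ 0) :
    ∃ D : Divisor K F,
      (∀ (v : Place K F) (a : K), 0 < v.ord (x - algebraMap K F a) →
        D v = v.ord (x - algebraMap K F a) - 1) ∧
      (∀ v : Place K F, v.ord x < 0 → D v = -v.ord x - 1) := by
  classical
  obtain ⟨b₀, a, hb₀⟩ := exists_isRed (K := K) hx
  have hn0 : 0 < Module.finrank K⟮x⟯ F := Module.finrank_pos
  obtain ⟨b, hb⟩ : ∃ b : Module.Basis (Fin (Module.finrank K⟮x⟯ F)) K⟮x⟯ F,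
      IsRed (K := K) x b a := by
    have : Nonempty (Fin (Module.finrank K⟮x⟯ F)) := ⟨⟨0, hn0⟩⟩
    refine ⟨basisOfLinearIndependentOfCardEqFinrank (linearIndependent_of_span hb₀.span)
      (Fintype.card_fin _), ?_⟩
    rwa [coe_basisOfLinearIndependentOfCardEqFinrank]
  let b' := (Algebra.traceForm K⟮x⟯ F).dualBasis (traceForm_nondegenerate K⟮x⟯ F) b
  have hb' : ∀ f i, b'.repr f i = Algebra.trace K⟮x⟯ F (f * b i) := fun f i => by
    rw [LinearMap.BilinForm.dualBasis_repr_apply]
    rfl
  -- the set of possibly ramified places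
  let T : Set (Place K F) := {v | v.ord x < 0} ∪ ⋃ i, {v | v.ord (b' i) < 0}
  have hT : T.Finite := (ord_neg_finite x).union
    (Set.finite_iUnion fun i => ord_neg_finite (b' i))
  have hunram : ∀ v ∉ T, ∀ c : K, 0 < v.ord (x - algebraMap K F c) →
      v.ord (x - algebraMap K F c) = 1 := by
    intro v hv c hc
    by_contra hne
    have hvx : 0 ≤ v.ord x := ord_nonneg_of_ord_sub_pos hx hc
    have hvb : ∀ i, 0 ≤ v.ord (b' i) := fun i => by
      by_contra h
      push Not at h
      exact hv (Or.inr (Set.mem_iUnion.mpr ⟨i, h⟩))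
    have hpoles0 : ∀ w : Place K F, 0 ≤ w.ord x → polesOf (K := K) x w = 0 := fun w hw => by
      rw [polesOf_apply, max_eq_right (by omega)]
    -- a function with a simple pole at `v`
    obtain ⟨f, hf0, hf, hfv⟩ := exists_ord_eq_neg (K := K)
      (D := Finsupp.single v 1 + (2 * genusFF K F) • polesOf (K := K) x) v (by
        rw [map_add, map_nsmul, degree_polesOf hx, nsmul_eq_mul, degree_single_one]
        have h1 : (1 : ℤ) ≤ Module.finrank K⟮x⟯ F := by exact_mod_cast hn0
        push_cast
        nlinarith [Int.natCast_nonneg (genusFF K F)])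
    rw [Finsupp.add_apply, Finsupp.smul_apply, hpoles0 v hvx, smul_zero, add_zero,
      Finsupp.single_eq_same] at hfv
    have h1 := (trace_fin_iff hx htame hf0).mpr (fun w d hd => by
      by_cases hwv : w = v
      · subst hwv
        rw [hfv]
        have := unique_of_ord_sub_pos hc hd
        subst this
        omega
      · rw [mem_riemannRochSpace_iff] at hf
        have h2 := (hf w).resolve_left hf0
        rw [Finsupp.add_apply, Finsupp.smul_apply, hpoles0 w (ord_nonneg_of_ord_sub_pos hx hd),
          smul_zero, add_zero, Finsupp.single_eq_of_ne hwv] at h2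
        omega)
    rw [forall_trace_mem_range_iff hb] at h1
    have h2 : f ∈ v.toValuationSubring := by
      rw [← b'.sum_repr f]
      refine sum_mem fun i _ => ?_
      rw [Algebra.smul_def, hb']
      refine mul_mem ?_ (RR.mem_of_ord_nonneg v (hvb i))
      obtain ⟨r, hr⟩ := h1 i
      rw [← hr]
      exact adjoin_mem hvx r
    have h3 := RR.ord_nonneg_of_mem v h2
    omega
  -- the divisor
  let d : Place K F → ℤ := fun v => if hv : v.ord x < 0 then -v.ord x - 1 else
    v.ord (x - algebraMap K F (exists_ord_sub_pos hx (not_lt.mp hv)).choose) - 1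
  have hd1 : ∀ (v : Place K F) (a : K), 0 < v.ord (x - algebraMap K F a) →
        d v = v.ord (x - algebraMap K F a) - 1 := by
    intro v c hc
    have h1 := ord_nonneg_of_ord_sub_pos hx hc
    simp only [d]
    rw [dif_neg (not_lt.mpr h1)]
    have := unique_of_ord_sub_pos hc
      (exists_ord_sub_pos hx (not_lt.mp (not_lt.mpr h1))).choose_spec
    rw [← this]
  have hd2 : ∀ v : Place K F, v.ord x < 0 → d v = -v.ord x - 1 := by
    intro v hv
    simp only [d]
    rw [dif_pos hv]
  refine ⟨Finsupp.onFinset hT.toFinset d ?_, fun v c hc => ?_, fun v hv => ?_⟩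
  · intro v hv
    rw [Set.Finite.mem_toFinset]
    by_contra hvT
    apply hv
    have h1 : 0 ≤ v.ord x := by
      by_contra h
      push Not at h
      exact hvT (Or.inl h)
    obtain ⟨c, hc⟩ := exists_ord_sub_pos hx h1
    rw [hd1 v c hc, hunram v hvT c hc]
    rfl
  · rw [Finsupp.onFinset_apply]
    exact hd1 v c hc
  · rw [Finsupp.onFinset_apply]
    exact hd2 v hv

omit [FunctionField K F] [FiniteDimensional K⟮x⟯ F] [Algebra.IsSeparable K⟮x⟯ F]
  [IsAlgClosed K] in
theorem adjoin_sub_algebraMap (c : K) : K⟮x - algebraMap K F c⟯ = K⟮x⟯ := by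
  apply le_antisymm
  · rw [adjoin_simple_le_iff]
    exact sub_mem (mem_adjoin_simple_self K x) (IntermediateField.algebraMap_mem _ c)
  · rw [adjoin_simple_le_iff]
    have := add_mem (mem_adjoin_simple_self K (x - algebraMap K F c))
      (IntermediateField.algebraMap_mem K⟮x - algebraMap K F c⟯ c)
    rwa [sub_add_cancel] at this

omit [FunctionField K F] [FiniteDimensional K⟮x⟯ F] [Algebra.IsSeparable K⟮x⟯ F]
  [IsAlgClosed K] in
include hx in
theorem transcendental_sub (c : K) : Transcendental K (x - algebraMap K F c) := by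
  intro h
  apply hx
  have := h.add (isAlgebraic_algebraMap c)
  rwa [sub_add_cancel] at this

omit [Algebra.IsSeparable K⟮x⟯ F] in
include hx in
/-- the sum of the ramification indices above `x = c` -/
theorem sum_ord_pos (c : K) :
    ∑ v ∈ (ord_pos_finite (K := K) (x - algebraMap K F c)).toFinset,
      v.ord (x - algebraMap K F c) = Module.finrank K⟮x⟯ F := by
  set y := (x - algebraMap K F c)⁻¹ with hy
  have hyt : Transcendental K y := Fermat.FF.transcendental_inv (transcendental_sub hx c)
  have hK : K⟮y⟯ = K⟮x⟯ := by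
    rw [hy, RR.adjoin_inv, adjoin_sub_algebraMap]
  have hfin : FiniteDimensional K⟮y⟯ F := by rw [hK]; infer_instance
  have h1 := degree_polesOf (K := K) hyt
  rw [hK] at h1
  rw [← h1, degree_eq_sum, Finsupp.sum]
  have hset : (ord_pos_finite (K := K) (x - algebraMap K F c)).toFinset =
      (polesOf (K := K) y).support := by
    ext v
    rw [Set.Finite.mem_toFinset, Finsupp.mem_support_iff, polesOf_apply, hy, v.ord_inv, neg_neg,
      Set.mem_ofPred_eq]
    omega
  rw [hset]
  refine Finset.sum_congr rfl fun v hv => ?_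
  rw [Finsupp.mem_support_iff, polesOf_apply, hy, v.ord_inv, neg_neg] at hv
  rw [polesOf_apply, hy, v.ord_inv, neg_neg]
  omega

omit [Algebra.IsSeparable K⟮x⟯ F] in
include hx in
/-- the sum of the ramification indices above infinity -/
theorem sum_ord_neg :
    ∑ v ∈ (ord_neg_finite (K := K) x).toFinset, -v.ord x = Module.finrank K⟮x⟯ F := by
  have h1 := degree_polesOf (K := K) hx
  rw [← h1, degree_eq_sum, Finsupp.sum]
  have hset : (ord_neg_finite (K := K) x).toFinset = (polesOf (K := K) x).support := by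
    ext v
    rw [Set.Finite.mem_toFinset, Finsupp.mem_support_iff, polesOf_apply, Set.mem_ofPred_eq]
    omega
  rw [hset]
  refine Finset.sum_congr rfl fun v hv => ?_
  rw [Finsupp.mem_support_iff, polesOf_apply] at hv
  rw [polesOf_apply]
  omega

include hx in
/-- **Tame Riemann–Hurwitz** in terms of the cardinalities of the fibres. -/
theorem tame_riemannHurwitz_card
    (htame : ∀ (v : Place K F) (a : K), 0 < v.ord (x - algebraMap K F a) →
      ((v.ord (x - algebraMap K F a) : ℤ) : K) ≠ 0)
    (htame' : ∀ v : Place K F, v.ord x < 0 → ((v.ord x : ℤ) : K) ≠ 0)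
    (S : Finset K)
    (hS : ∀ a, a ∉ S → {v : Place K F | 0 < v.ord (x - algebraMap K F a)}.ncard =
      Module.finrank K⟮x⟯ F) :
    2 * (genusFF K F : ℤ) - 2 = ∑ a ∈ S, ((Module.finrank K⟮x⟯ F : ℤ) -
        {v : Place K F | 0 < v.ord (x - algebraMap K F a)}.ncard) -
      Module.finrank K⟮x⟯ F - {v : Place K F | v.ord x < 0}.ncard := by
  classical
  obtain ⟨D, hD, hD'⟩ := exists_different hx htame
  rw [tame_riemannHurwitz hx htame htame' hD hD']
  set Z : K → Finset (Place K F) := fun a =>
    (ord_pos_finite (K := K) (x - algebraMap K F a)).toFinset with hZ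
  set P : Finset (Place K F) := (ord_neg_finite (K := K) x).toFinset with hP
  have hmemZ : ∀ a v, v ∈ Z a ↔ 0 < v.ord (x - algebraMap K F a) := fun a v => by
    simp [hZ]
  have hmemP : ∀ v, v ∈ P ↔ v.ord x < 0 := fun v => by simp [hP]
  have hZcard : ∀ a, {v : Place K F | 0 < v.ord (x - algebraMap K F a)}.ncard = (Z a).card :=
    fun a => Set.ncard_eq_toFinset_card _ (ord_pos_finite (K := K) (x - algebraMap K F a))
  have hPcard : {v : Place K F | v.ord x < 0}.ncard = P.card :=
    Set.ncard_eq_toFinset_card _ (ord_neg_finite (K := K) x)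
  have hsumZ : ∀ a, ∑ v ∈ Z a, D v = (Module.finrank K⟮x⟯ F : ℤ) - (Z a).card := fun a => by
    rw [← sum_ord_pos hx a, Finset.card_eq_sum_ones, Nat.cast_sum, ← Finset.sum_sub_distrib]
    refine Finset.sum_congr rfl fun v hv => ?_
    rw [hD v a ((hmemZ a v).mp hv)]
    simp
  have hsumP : ∑ v ∈ P, D v = (Module.finrank K⟮x⟯ F : ℤ) - P.card := by
    rw [← sum_ord_neg hx, Finset.card_eq_sum_ones, Nat.cast_sum, ← Finset.sum_sub_distrib]
    refine Finset.sum_congr rfl fun v hv => ?_
    rw [hD' v ((hmemP v).mp hv)]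
    simp
  have hD0 : ∀ a, a ∉ S → ∀ v ∈ Z a, D v = 0 := by
    intro a ha
    have h1 := hsumZ a
    rw [← hZcard, hS a ha, sub_self] at h1
    rw [Finset.sum_eq_zero_iff_of_nonneg] at h1
    · exact h1
    · intro v hv
      rw [hD v a ((hmemZ a v).mp hv)]
      have := (hmemZ a v).mp hv
      omega
  have hsupp : D.support ⊆ S.biUnion Z ∪ P := by
    intro v hv
    rw [Finsupp.mem_support_iff] at hv
    rw [Finset.mem_union, Finset.mem_biUnion]
    rcases lt_or_ge (v.ord x) 0 with h | h
    · exact Or.inr ((hmemP v).mpr h)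
    · obtain ⟨a, ha⟩ := exists_ord_sub_pos hx h
      left
      refine ⟨a, ?_, (hmemZ a v).mpr ha⟩
      by_contra haS
      exact hv (hD0 a haS v ((hmemZ a v).mpr ha))
  rw [degree_eq_sum, Finsupp.sum_of_support_subset D hsupp _ (fun _ _ => rfl),
    Finset.sum_union, Finset.sum_biUnion, hsumP]
  · simp only [hsumZ, hZcard, hPcard]
    ring
  · intro a _ c _ hac
    rw [Function.onFun, Finset.disjoint_left]
    intro v hv hv'
    exact hac (unique_of_ord_sub_pos ((hmemZ a v).mp hv) ((hmemZ c v).mp hv'))
  · rw [Finset.disjoint_left]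
    intro v hv hv'
    rw [Finset.mem_biUnion] at hv
    obtain ⟨a, _, ha⟩ := hv
    have h1 := ord_nonneg_of_ord_sub_pos hx ((hmemZ a v).mp ha)
    have h2 := (hmemP v).mp hv'
    omega

end FunctionField

section CharZero

variable {K F : Type*} [Field K] [Field F] [Algebra K F] [Fermat.FF.IsFF1 K F] [IsAlgClosed K]
  [CharZero K]

variable (K F) in
theorem functionField_of_isFF1 : RR.FunctionField K F := by
  have h1 : HasPrincipalDivisors K F := Fermat.FF.hasPrincipalDivisors
  obtain ⟨x, hx, hfin⟩ := Fermat.FF.IsFF1.exists_finite (K := K) (F := F)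
  exact
    { finiteResidue := Fermat.FF.finite_residueField
      nonempty_place := nonempty_place_of_separable hx
      exists_finite := ⟨x, hx, hfin⟩ }

/-- The divisor of a nonzero differential exists and has degree `2 genusFF - 2`. -/
theorem exists_divisor_of_differential {ω : Ω[F⁄K]} (hω : ω ≠ 0) :
    ∃ D : Divisor K F, (∀ v : Place K F, D v = v.ordDifferential ω) ∧
      Divisor.degree D = 2 * (genusFF K F : ℤ) - 2 := by
  have hFF := functionField_of_isFF1 K F
  obtain ⟨x, hx, hfin⟩ := Fermat.FF.IsFF1.exists_finite (K := K) (F := F)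
  have hcast : ∀ n : ℤ, n ≠ 0 → ((n : ℤ) : K) ≠ 0 := fun n hn => by exact_mod_cast hn
  have htame : ∀ (v : Place K F) (a : K), 0 < v.ord (x - algebraMap K F a) →
      ((v.ord (x - algebraMap K F a) : ℤ) : K) ≠ 0 := fun v a h => hcast _ h.ne'
  have htame' : ∀ v : Place K F, v.ord x < 0 → ((v.ord x : ℤ) : K) ≠ 0 :=
    fun v h => hcast _ h.ne
  obtain ⟨D, hD, hD'⟩ := exists_different hx htame
  have hRH := tame_riemannHurwitz hx htame htame' hD hD'
  obtain ⟨c, hc⟩ : ∃ c : F, c • KaehlerDifferential.D K F x = ω := by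
    have : ω ∈ Submodule.span F {KaehlerDifferential.D K F x} := by
      rw [Fermat.FF.span_D_eq_top hx]; trivial
    exact Submodule.mem_span_singleton.mp this
  have hc0 : c ≠ 0 := by
    rintro rfl
    apply hω
    rw [← hc, zero_smul]
  refine ⟨D - 2 • polesOf (K := K) x + divOf c, fun v => ?_, ?_⟩
  · rw [← hc, Fermat.FF.ordDifferential_smul' v hc0 (Fermat.FF.D_ne_zero hx), Finsupp.add_apply,
      Finsupp.sub_apply, Finsupp.smul_apply, divOf_apply, polesOf_apply]
    rcases le_or_gt 0 (v.ord x) with hv | hv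
    · obtain ⟨a, ha⟩ := exists_ord_sub_pos hx hv
      rw [Fermat.FF.ordDifferential_D_sub v a ha, hD v a ha, max_eq_right (by omega)]
      simp
      ring
    · rw [Fermat.FF.ordDifferential_D_of_ord_ne_zero v hv.ne, hD' v hv, max_eq_left (by omega)]
      simp
      ring
  · rw [map_add, map_sub, map_nsmul, degree_polesOf hx, degree_divOf, hRH]
    simp

theorem hasCanonicalDivisor : HasCanonicalDivisor (K := K) (F := F) :=
  ⟨fun _ hω => (exists_divisor_of_differential hω).imp fun _ h => h.1⟩

/-- The two genera agree in characteristic zero. -/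
theorem genusFF_eq_genus [HasCanonicalDivisor (K := K) (F := F)] :
    genusFF K F = genus K F := by
  have hFF := functionField_of_isFF1 K F
  obtain ⟨x, hx, hfin⟩ := Fermat.FF.IsFF1.exists_finite (K := K) (F := F)
  have h : ∃ ω : Ω[F⁄K], ω ≠ 0 := ⟨_, Fermat.FF.D_ne_zero hx⟩
  unfold genus
  rw [dif_pos h]
  obtain ⟨D, hD, hdeg⟩ := exists_divisor_of_differential h.choose_spec
  have h1 : canonicalDivisorOf h.choose_spec = D := by
    ext v
    rw [canonicalDivisorOf_apply, hD]
  rw [h1, hdeg]
  omega

end CharZero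

end Fermat.Agent.RH
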